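import Mathlib
import Fermat.Prelude.Def_FLTPrelim_ModularRep
import Fermat.Agent.Lib.GalQbar

/-!
# S51, part A3: the `3`-torsion

If the mod-`3` representation of an integral Weierstrass curve with `Δ ≠ 0` is reducible, then the
`3`-division polynomial `Ψ₃` has a rational root.
-/

set_option autoImplicit false
open WeierstrassCurve WeierstrassCurve.Affine WeierstrassCurve.Affine.Point Polynomial

namespace Fermat.Agent.S51.ThreeTorsion

section generic

variable {K : Type*} [Field K] (E : WeierstrassCurve K)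

/-- On the curve, `Ψ₂Sq(x) = (y - negY x y)²`. -/
theorem eval_Ψ₂Sq_eq {x y : K} (h : E.toAffine.Equation x y) :
    E.Ψ₂Sq.eval x = (y - E.toAffine.negY x y) ^ 2 := by
  rw [Affine.equation_iff] at h
  simp only [Ψ₂Sq, b₂, b₄, b₆, negY, eval_add, eval_mul, eval_pow, eval_C, eval_X]
  grind

/-- At a point of the curve with `y = negY x y`, `Ψ₃(x) = -(∂F/∂x)²`. -/
theorem eval_Ψ₃_eq_of_Y_eq {x y : K} (h : E.toAffine.Equation x y)
    (hy : y = E.toAffine.negY x y) :
    E.Ψ₃.eval x = -(E.a₁ * y - (3 * x ^ 2 + 2 * E.a₂ * x + E.a₄)) ^ 2 := by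
  rw [Affine.equation_iff] at h
  simp only [negY] at hy
  simp only [Ψ₃, b₂, b₄, b₆, b₈, eval_add, eval_mul, eval_pow, eval_C, eval_X, eval_ofNat]
  grind

/-- The polynomial identity behind the doubling formula. -/
theorem doubling_aux {x y : K} (h : E.toAffine.Equation x y) :
    (3 * x ^ 2 + 2 * E.a₂ * x + E.a₄ - E.a₁ * y) ^ 2 +
      E.a₁ * (3 * x ^ 2 + 2 * E.a₂ * x + E.a₄ - E.a₁ * y) * (y - E.toAffine.negY x y)
      - (E.a₂ + 3 * x) * (y - E.toAffine.negY x y) ^ 2 + E.Ψ₃.eval x = 0 := by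
  rw [Affine.equation_iff] at h
  simp only [Ψ₃, b₂, b₄, b₆, b₈, negY, eval_add, eval_mul, eval_pow, eval_C, eval_X, eval_ofNat]
  grind

variable {E}

/-- A nonsingular point with `y = negY x y` has `Ψ₃(x) ≠ 0`. -/
theorem eval_Ψ₃_ne_zero_of_Y_eq {x y : K} (h : E.toAffine.Nonsingular x y)
    (hy : y = E.toAffine.negY x y) : E.Ψ₃.eval x ≠ 0 := by
  rw [eval_Ψ₃_eq_of_Y_eq E h.1 hy]
  rw [Affine.nonsingular_iff] at h
  rcases h.2 with h2 | h2
  · exact neg_ne_zero.mpr (pow_ne_zero 2 (sub_ne_zero.mpr h2))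
  · exact absurd hy h2

variable [DecidableEq K]

/-- The doubling formula for the `x`-coordinate: `x(2P) Ψ₂Sq(x) = x Ψ₂Sq(x) - Ψ₃(x)`. -/
theorem two_some {x y : K} (h : E.toAffine.Nonsingular x y) (hy : y ≠ E.toAffine.negY x y) :
    ∃ (x' y' : K) (h' : E.toAffine.Nonsingular x' y'),
      Point.some x y h + Point.some x y h = Point.some x' y' h' ∧
        x' * E.Ψ₂Sq.eval x = x * E.Ψ₂Sq.eval x - E.Ψ₃.eval x := by
  refine ⟨_, _, _, add_self_of_Y_ne hy, ?_⟩
  rw [slope_of_Y_ne rfl hy, eval_Ψ₂Sq_eq E h.1]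
  have hD : y - E.toAffine.negY x y ≠ 0 := sub_ne_zero.mpr hy
  have h3 := doubling_aux E h.1
  simp only [addX]
  field_simp
  linear_combination h3

/-- A nonzero `3`-torsion point has `Ψ₃(x) = 0`. -/
theorem eval_Ψ₃_eq_zero_of_three_zsmul {x y : K} (h : E.toAffine.Nonsingular x y)
    (h3 : (3 : ℤ) • Point.some x y h = 0) : E.Ψ₃.eval x = 0 := by
  have hadd : Point.some x y h + Point.some x y h = -Point.some x y h := by
    linear_combination (norm := module) h3
  by_cases hy : y = E.toAffine.negY x y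
  · rw [add_self_of_Y_eq hy] at hadd
    exact absurd (neg_eq_zero.mp hadd.symm) (some_ne_zero h)
  · obtain ⟨x', y', h', h2, hx⟩ := two_some h hy
    rw [h2, neg_some, Point.some.injEq] at hadd
    have hne : E.Ψ₂Sq.eval x ≠ 0 := by
      rw [eval_Ψ₂Sq_eq E h.1]
      exact pow_ne_zero 2 (sub_ne_zero.mpr hy)
    rw [hadd.1] at hx
    linear_combination hx

/-- A point whose `x`-coordinate is a root of `Ψ₃` is a `3`-torsion point. -/
theorem three_zsmul_of_eval_Ψ₃_eq_zero {x y : K} (h : E.toAffine.Nonsingular x y)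
    (hx : E.Ψ₃.eval x = 0) : (3 : ℤ) • Point.some x y h = 0 := by
  have hy : y ≠ E.toAffine.negY x y := fun hy => eval_Ψ₃_ne_zero_of_Y_eq h hy hx
  obtain ⟨x', y', h', h2, hx'⟩ := two_some h hy
  have hne : E.Ψ₂Sq.eval x ≠ 0 := by
    rw [eval_Ψ₂Sq_eq E h.1]
    exact pow_ne_zero 2 (sub_ne_zero.mpr hy)
  have hxx : x' = x := by
    rw [hx, sub_zero] at hx'
    exact mul_right_cancel₀ hne hx'
  rcases X_eq_iff.mp hxx with h4 | h4
  · rw [← h2] at h4
    have : Point.some x y h = 0 := by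
      linear_combination (norm := module) h4
    exact absurd this (some_ne_zero h)
  · rw [← h2] at h4
    linear_combination (norm := module) h4

/-- The `x`-coordinate of a point (with junk value `0` at the point at infinity). -/
def xc : E.toAffine.Point → K
  | .zero => 0
  | .some x _ _ => x

omit [DecidableEq K] in
@[simp] theorem xc_some {x y : K} (h : E.toAffine.Nonsingular x y) : xc (Point.some x y h) = x := rfl

omit [DecidableEq K] in
theorem xc_neg (P : E.toAffine.Point) : xc (-P) = xc P := by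
  cases P <;> rfl

omit [DecidableEq K] in
/-- Two nonzero points with the same `x`-coordinate are equal or opposite. -/
theorem eq_or_eq_neg_of_xc_eq {P Q : E.toAffine.Point} (hP : P ≠ 0) (hQ : Q ≠ 0)
    (h : xc P = xc Q) : P = Q ∨ P = -Q := by
  match P, Q with
  | .zero, _ => exact absurd rfl hP
  | _, .zero => exact absurd rfl hQ
  | .some x₁ y₁ h₁, .some x₂ y₂ h₂ => exact X_eq_iff.mp h

omit [DecidableEq K] in
theorem xc_ne_of_ne {P Q : E.toAffine.Point} (hP : P ≠ 0) (hQ : Q ≠ 0) (h1 : P ≠ Q)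
    (h2 : P ≠ -Q) : xc P ≠ xc Q :=
  fun h => (eq_or_eq_neg_of_xc_eq hP hQ h).elim h1 h2

/-- The `x`-coordinate of a nonzero `3`-torsion point is a root of `Ψ₃`. -/
theorem eval_Ψ₃_xc {P : E.toAffine.Point} (hP : P ≠ 0) (h3 : (3 : ℤ) • P = 0) :
    E.Ψ₃.eval (xc P) = 0 := by
  match P with
  | .zero => exact absurd rfl hP
  | .some x y h => exact eval_Ψ₃_eq_zero_of_three_zsmul h h3

/-- Rigidity: two "independent" `3`-torsion points generate the whole `3`-torsion. -/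
theorem three_torsion_rigidity (h3K : (3 : K) ≠ 0) {P R Q : E.toAffine.Point}
    (hP : (3 : ℤ) • P = 0) (hR : (3 : ℤ) • R = 0) (hQ : (3 : ℤ) • Q = 0)
    (hP0 : P ≠ 0) (hR0 : R ≠ 0) (hRP : R ≠ P) (hRP' : R ≠ -P) :
    Q = 0 ∨ Q = P ∨ Q = -P ∨ Q = R ∨ Q = -R ∨ Q = P + R ∨ Q = -(P + R) ∨ Q = P - R ∨
      Q = -(P - R) := by
  by_contra hcon
  simp only [not_or] at hcon
  obtain ⟨hQ0, hQ1, hQ2, hQ3, hQ4, hQ5, hQ6, hQ7, hQ8⟩ := hcon
  have hPR0 : P + R ≠ 0 := fun h => hRP' (by linear_combination (norm := module) h)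
  have hPmR0 : P - R ≠ 0 := fun h => hRP (by linear_combination (norm := module) -h)
  have hPR3 : (3 : ℤ) • (P + R) = 0 := by rw [smul_add, hP, hR, add_zero]
  have hPmR3 : (3 : ℤ) • (P - R) = 0 := by rw [smul_sub, hP, hR, sub_zero]
  -- the ten inequalities between `x`-coordinates
  have e1 : xc Q ≠ xc P := xc_ne_of_ne hQ0 hP0 hQ1 hQ2
  have e2 : xc Q ≠ xc R := xc_ne_of_ne hQ0 hR0 hQ3 hQ4
  have e3 : xc Q ≠ xc (P + R) := xc_ne_of_ne hQ0 hPR0 hQ5 hQ6
  have e4 : xc Q ≠ xc (P - R) := xc_ne_of_ne hQ0 hPmR0 hQ7 hQ8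
  have e5 : xc P ≠ xc R := xc_ne_of_ne hP0 hR0 (Ne.symm hRP)
    fun h => hRP' (by linear_combination (norm := module) h)
  have e6 : xc P ≠ xc (P + R) := xc_ne_of_ne hP0 hPR0
    (fun h => hR0 (by linear_combination (norm := module) -h))
    fun h => hRP (by linear_combination (norm := module) h - hP)
  have e7 : xc P ≠ xc (P - R) := xc_ne_of_ne hP0 hPmR0
    (fun h => hR0 (by linear_combination (norm := module) h))
    fun h => hRP' (by linear_combination (norm := module) hP - h)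
  have e8 : xc R ≠ xc (P + R) := xc_ne_of_ne hR0 hPR0
    (fun h => hP0 (by linear_combination (norm := module) -h))
    fun h => hRP (by linear_combination (norm := module) hR - h)
  have e9 : xc R ≠ xc (P - R) := xc_ne_of_ne hR0 hPmR0
    (fun h => hRP' (by linear_combination (norm := module) hR - h))
    fun h => hP0 (by linear_combination (norm := module) h)
  have e10 : xc (P + R) ≠ xc (P - R) := xc_ne_of_ne hPR0 hPmR0
    (fun h => hR0 (by linear_combination (norm := module) hR - h))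
    fun h => hP0 (by linear_combination (norm := module) hP - h)
  let s : Finset K := {xc Q, xc P, xc R, xc (P + R), xc (P - R)}
  have hcard : s.card = 5 := by
    simp only [s]
    rw [Finset.card_insert_of_notMem, Finset.card_insert_of_notMem, Finset.card_insert_of_notMem,
      Finset.card_insert_of_notMem, Finset.card_singleton]
    · simpa using e10
    · simp only [Finset.mem_insert, Finset.mem_singleton, not_or]; exact ⟨e8, e9⟩
    · simp only [Finset.mem_insert, Finset.mem_singleton, not_or]; exact ⟨e5, e6, e7⟩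
    · simp only [Finset.mem_insert, Finset.mem_singleton, not_or]; exact ⟨e1, e2, e3, e4⟩
  have hroots : ∀ i ∈ s, E.Ψ₃.eval i = 0 := by
    intro i hi
    simp only [s, Finset.mem_insert, Finset.mem_singleton] at hi
    rcases hi with rfl | rfl | rfl | rfl | rfl
    · exact eval_Ψ₃_xc hQ0 hQ
    · exact eval_Ψ₃_xc hP0 hP
    · exact eval_Ψ₃_xc hR0 hR
    · exact eval_Ψ₃_xc hPR0 hPR3
    · exact eval_Ψ₃_xc hPmR0 hPmR3
  have hzero : E.Ψ₃ = 0 :=
    Polynomial.eq_zero_of_natDegree_lt_card_of_eval_eq_zero' E.Ψ₃ s hroots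
      (lt_of_le_of_lt E.natDegree_Ψ₃_le (by rw [hcard]; norm_num))
  exact E.Ψ₃_ne_zero h3K hzero

/-- Over an algebraically closed field of characteristic `≠ 3`, a Weierstrass curve with `Δ ≠ 0`
has a nonzero `3`-torsion point. -/
theorem exists_three_torsion [IsAlgClosed K] (h3K : (3 : K) ≠ 0) (hΔ : E.Δ ≠ 0) :
    ∃ P : E.toAffine.Point, P ≠ 0 ∧ (3 : ℤ) • P = 0 := by
  obtain ⟨x, hx⟩ := IsAlgClosed.exists_root E.Ψ₃ (by
    rw [Polynomial.degree_eq_natDegree (E.Ψ₃_ne_zero h3K), E.natDegree_Ψ₃ h3K]; norm_num)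
  let q : K[X] := X ^ 2 + C (E.a₁ * x + E.a₃) * X - C (x ^ 3 + E.a₂ * x ^ 2 + E.a₄ * x + E.a₆)
  have hq : q.degree = 2 := by
    simp only [q]
    compute_degree!
  obtain ⟨y, hy⟩ := IsAlgClosed.exists_root q (by rw [hq]; norm_num)
  have heq : E.toAffine.Equation x y := by
    rw [Affine.equation_iff]
    simp only [q, IsRoot.def, eval_add, eval_sub, eval_mul, eval_pow, eval_C, eval_X] at hy
    linear_combination hy
  have hns : E.toAffine.Nonsingular x y :=
    (E.toAffine.equation_iff_nonsingular_of_Δ_ne_zero hΔ).mp heq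
  exact ⟨Point.some x y hns, some_ne_zero hns, three_zsmul_of_eval_Ψ₃_eq_zero hns hx⟩

end generic

section galois

open Fermat.Agent.Lib.GalQbar

variable (E : WeierstrassCurve ℚ)

/-- The discriminant of the base change to `AlgebraicClosure ℚ` is nonzero. -/
theorem Δ_baseChange_ne_zero (hΔ : E.Δ ≠ 0) : (E⁄(AlgebraicClosure ℚ)).Δ ≠ 0 := by
  simp only [Affine.baseChange, WeierstrassCurve.baseChange, map_Δ]
  simpa using hΔ

/-- The Galois action on `x`-coordinates. -/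
theorem xc_smul (σ : AlgebraicClosure ℚ ≃ₐ[ℚ] AlgebraicClosure ℚ)
    (P : (E⁄(AlgebraicClosure ℚ)).Point) : xc (σ • P) = σ (xc P) := by
  match P with
  | .zero => exact (map_zero σ).symm
  | .some x y h => rfl

/-- The `3`-torsion of the curve over `AlgebraicClosure ℚ` is nontrivial. -/
theorem nontrivial_torsion_three (hΔ : E.Δ ≠ 0) :
    Nontrivial (Submodule.torsionBy ℤ (E⁄(AlgebraicClosure ℚ)).Point ((3 : ℕ) : ℤ)) := by
  obtain ⟨P, hP0, hP3⟩ := exists_three_torsion (E := E⁄(AlgebraicClosure ℚ)) (by norm_num)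
    (Δ_baseChange_ne_zero E hΔ)
  refine ⟨⟨⟨P, ?_⟩, 0, ?_⟩⟩
  · rw [Submodule.mem_torsionBy_iff]
    exact_mod_cast hP3
  · intro h
    exact hP0 (congrArg Subtype.val h)

/-- A Galois-stable submodule of the `3`-torsion which is neither `⊥` nor `⊤` contains a nonzero
point all of whose Galois conjugates are `±` itself. -/
theorem exists_stable_point
    (N : Submodule (ZMod 3) (Submodule.torsionBy ℤ (E⁄(AlgebraicClosure ℚ)).Point ((3 : ℕ) : ℤ)))
    (hN : IsGaloisStable ℚ N) (hbot : N ≠ ⊥) (htop : N ≠ ⊤) :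
    ∃ P : (E⁄(AlgebraicClosure ℚ)).Point, P ≠ 0 ∧ (3 : ℤ) • P = 0 ∧
      ∀ σ : AlgebraicClosure ℚ ≃ₐ[ℚ] AlgebraicClosure ℚ, σ • P = P ∨ σ • P = -P := by
  obtain ⟨P, hPN, hP0⟩ := (Submodule.ne_bot_iff N).mp hbot
  have hP3 : (3 : ℤ) • (P : (E⁄(AlgebraicClosure ℚ)).Point) = 0 := by
    have := P.2
    rw [Submodule.mem_torsionBy_iff] at this
    exact_mod_cast this
  have hP0' : (P : (E⁄(AlgebraicClosure ℚ)).Point) ≠ 0 := fun h0 => hP0 (Subtype.ext h0)
  refine ⟨P, hP0', hP3, ?_⟩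
  intro σ
  by_contra hcon
  rw [not_or] at hcon
  obtain ⟨hc1, hc2⟩ := hcon
  have hRN : σ • P ∈ N := hN σ P hPN
  have hR3 : (3 : ℤ) • (σ • (P : (E⁄(AlgebraicClosure ℚ)).Point)) = 0 := by
    rw [← algEquiv_smul_zsmul, hP3, smul_zero]
  have hR0 : σ • (P : (E⁄(AlgebraicClosure ℚ)).Point) ≠ 0 := by
    intro h0
    exact hP0' ((smul_eq_zero_iff_eq σ).mp h0)
  apply htop
  rw [eq_top_iff]
  intro Q _
  have hQ3 : (3 : ℤ) • (Q : (E⁄(AlgebraicClosure ℚ)).Point) = 0 := by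
    have := Q.2
    rw [Submodule.mem_torsionBy_iff] at this
    exact_mod_cast this
  have hrig := three_torsion_rigidity (by norm_num) hP3 hR3 hQ3 hP0' hR0 hc1 hc2
  have key : ∀ Q' : Submodule.torsionBy ℤ (E⁄(AlgebraicClosure ℚ)).Point ((3 : ℕ) : ℤ),
      Q' ∈ N → (Q : (E⁄(AlgebraicClosure ℚ)).Point) = Q' → Q ∈ N := by
    intro Q' hQ' hQQ'
    rwa [Subtype.ext hQQ']
  rcases hrig with h1 | h1 | h1 | h1 | h1 | h1 | h1 | h1 | h1
  · exact key 0 N.zero_mem h1
  · exact key P hPN h1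
  · exact key (-P) (N.neg_mem hPN) h1
  · exact key (σ • P) hRN h1
  · exact key (-(σ • P)) (N.neg_mem hRN) h1
  · exact key (P + σ • P) (N.add_mem hPN hRN) h1
  · exact key (-(P + σ • P)) (N.neg_mem (N.add_mem hPN hRN)) h1
  · exact key (P - σ • P) (N.sub_mem hPN hRN) h1
  · exact key (-(P - σ • P)) (N.neg_mem (N.sub_mem hPN hRN)) h1

end galois

end Fermat.Agent.S51.ThreeTorsion

namespace Fermat.Agent.S51

open Fermat.Agent.S51.ThreeTorsion Fermat.Agent.Lib.GalQbar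

/-- **A3** (interface theorem T3b): if the mod-`3` representation of `E/ℚ` is reducible, then
the `3`-division polynomial `Ψ₃` has a rational root. -/
theorem exists_rat_root_Ψ₃ (E : WeierstrassCurve ℚ) (hΔ : E.Δ ≠ 0)
    (h : ¬ GaloisRepIsIrreducible (K := AlgebraicClosure ℚ) ℚ E 3) :
    ∃ x₃ : ℚ, E.Ψ₃.eval x₃ = 0 := by
  unfold Affine.Point.GaloisRepIsIrreducible at h
  rw [not_and] at h
  have h' := h (nontrivial_torsion_three E hΔ)
  push Not at h'
  obtain ⟨N, hN, hbot, htop⟩ := h'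
  obtain ⟨P, hP0, hP3, hfix⟩ := exists_stable_point E N hN hbot htop
  -- the `x`-coordinate of `P` is fixed by Galois, so rational
  have hx : ∀ σ : AlgebraicClosure ℚ ≃ₐ[ℚ] AlgebraicClosure ℚ, σ (xc P) = xc P := by
    intro σ
    rw [← xc_smul]
    rcases hfix σ with h1 | h1
    · rw [h1]
    · rw [h1, xc_neg]
  obtain ⟨q, hq⟩ := exists_rat_of_fixed _ hx
  refine ⟨q, ?_⟩
  have hroot := eval_Ψ₃_xc hP0 hP3
  rw [← hq] at hroot
  have hmap : (E⁄(AlgebraicClosure ℚ)).Ψ₃ = E.Ψ₃.map (algebraMap ℚ (AlgebraicClosure ℚ)) := by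
    simp only [Affine.baseChange, WeierstrassCurve.baseChange, map_Ψ₃]
  rw [hmap, Polynomial.eval_map_algebraMap, Polynomial.aeval_algebraMap_apply] at hroot
  exact (map_eq_zero_iff _ (algebraMap ℚ (AlgebraicClosure ℚ)).injective).mp hroot

/-- **A3** for an integral model. -/
theorem exists_rat_root_Ψ₃_of_int (W : WeierstrassCurve ℤ) (hΔ : W.Δ ≠ 0)
    (h : ¬ W.ModRepIsIrreducible 3) :
    ∃ x₃ : ℚ, (W.map (Int.castRingHom ℚ)).Ψ₃.eval x₃ = 0 :=
  exists_rat_root_Ψ₃ _ (by rw [map_Δ]; simpa using hΔ) h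

/-- **A3**, explicit form: if the mod-`3` representation is reducible, then
`3x⁴ + b₂x³ + 3b₄x² + 3b₆x + b₈` has a rational root. -/
theorem exists_rat_root_explicit (W : WeierstrassCurve ℤ) (hΔ : W.Δ ≠ 0)
    (h : ¬ W.ModRepIsIrreducible 3) :
    ∃ x₃ : ℚ, 3 * x₃ ^ 4 + (W.b₂ : ℚ) * x₃ ^ 3 + 3 * (W.b₄ : ℚ) * x₃ ^ 2 + 3 * (W.b₆ : ℚ) * x₃ +
      (W.b₈ : ℚ) = 0 := by
  obtain ⟨x₃, hx⟩ := exists_rat_root_Ψ₃_of_int W hΔ h
  refine ⟨x₃, ?_⟩
  simpa [Ψ₃, map_b₂, map_b₄, map_b₆, map_b₈] using hx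

end Fermat.Agent.S51
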