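import Mathlib

set_option autoImplicit false

/-!
# No rational `r` with `r^2 - 1` and `r^2 - 81` both squares

Elementary infinite descent (a complete 2-descent on `y^2 = x (x - 1) (x - 81)` written
out in integers).  Part C1 of the S51 plan.
-/

namespace Fermat.Agent.S51.Concordant

/-- parity of an integer versus its square mod 4 -/
theorem sq_mod_four (x : ℤ) :
    (x % 2 = 0 ∧ x ^ 2 % 4 = 0) ∨ (x % 2 = 1 ∧ x ^ 2 % 4 = 1) := by
  rcases Int.even_or_odd' x with ⟨k, rfl | rfl⟩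
  · left
    refine ⟨by omega, ?_⟩
    have : (2 * k) ^ 2 = 4 * (k ^ 2) := by ring
    rw [this]; omega
  · right
    refine ⟨by omega, ?_⟩
    have : (2 * k + 1) ^ 2 = 4 * (k ^ 2 + k) + 1 := by ring
    rw [this]; omega

/-- residues of a natural number versus its square mod 3 -/
theorem sq_mod_three (x : ℕ) :
    (x % 3 = 0 ∧ x ^ 2 % 3 = 0) ∨ (x % 3 ≠ 0 ∧ x ^ 2 % 3 = 1) := by
  obtain ⟨t, ht⟩ : ∃ t, x = 3 * t ∨ x = 3 * t + 1 ∨ x = 3 * t + 2 := ⟨x / 3, by omega⟩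
  rcases ht with rfl | rfl | rfl
  · left
    refine ⟨by omega, ?_⟩
    have : (3 * t) ^ 2 = 3 * (3 * t ^ 2) := by ring
    rw [this]; omega
  · right
    refine ⟨by omega, ?_⟩
    have : (3 * t + 1) ^ 2 = 3 * (3 * t ^ 2 + 2 * t) + 1 := by ring
    rw [this]; omega
  · right
    refine ⟨by omega, ?_⟩
    have : (3 * t + 2) ^ 2 = 3 * (3 * t ^ 2 + 4 * t + 1) + 1 := by ring
    rw [this]; omega

theorem three_dvd_of_sq_add_sq (m n : ℕ) (h : 3 ∣ m ^ 2 + n ^ 2) : 3 ∣ m ∧ 3 ∣ n := by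
  rcases sq_mod_three m with ⟨h1, h2⟩ | ⟨h1, h2⟩ <;>
  rcases sq_mod_three n with ⟨h3, h4⟩ | ⟨h3, h4⟩ <;> omega

theorem dvd_eighty_cases (D : ℤ) (h : D ∣ 80) :
    D = 1 ∨ D = -1 ∨ D = 2 ∨ D = -2 ∨ D = 4 ∨ D = -4 ∨ D = 5 ∨ D = -5 ∨ D = 8 ∨ D = -8 ∨
    D = 10 ∨ D = -10 ∨ D = 16 ∨ D = -16 ∨ D = 20 ∨ D = -20 ∨ D = 40 ∨ D = -40 ∨
    D = 80 ∨ D = -80 := by
  have h1 : D.natAbs ∣ 80 := by simpa using Int.natAbs_dvd_natAbs.mpr h
  have h2 : D.natAbs ∈ Nat.divisors 80 := Nat.mem_divisors.mpr ⟨h1, by norm_num⟩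
  have h3 : Nat.divisors 80 = {1, 2, 4, 5, 8, 10, 16, 20, 40, 80} := by decide
  rw [h3] at h2
  simp only [Finset.mem_insert, Finset.mem_singleton] at h2
  omega

theorem two_le_of_sq (x y : ℕ) (c : ℤ) (hy : 0 < y) (hx : 0 < x)
    (h : (x : ℤ) ^ 2 - (y : ℤ) ^ 2 = c) (hc : 0 < c) : 2 ≤ x := by
  by_contra hlt
  have hx1 : x = 1 := by omega
  subst hx1
  have : (1 : ℤ) ≤ (y : ℤ) := by exact_mod_cast hy
  push_cast at h
  nlinarith

theorem lt_prod (e x y w : ℕ) (he : 0 < e) (hx : 2 ≤ x) (hy : 0 < y) (hw : 0 < w) :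
    e < x * y * w * e := by
  have h1 : 2 ≤ x * y * w := by
    calc 2 = 2 * 1 * 1 := by norm_num
      _ ≤ x * y * w := Nat.mul_le_mul (Nat.mul_le_mul hx hy) hw
  nlinarith

/-- The heart of the descent: a coprime factorised configuration yields a strictly smaller
solution. -/
theorem descent_core (p q u z : ℕ) (hp : 0 < p) (hq : 0 < q) (hu : 0 < u) (hz : 0 < z)
    (hpz : Nat.Coprime p z) (hqu : Nat.Coprime q u)
    (h : (q : ℤ) ^ 2 * ((p : ℤ) ^ 2 - (z : ℤ) ^ 2) =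
      (u : ℤ) ^ 2 * (81 * (p : ℤ) ^ 2 - (z : ℤ) ^ 2)) :
    ∃ a e V W : ℕ, 0 < e ∧ e < p * q * u * z ∧ a ^ 2 = e ^ 2 + V ^ 2 ∧
      a ^ 2 = 81 * e ^ 2 + W ^ 2 := by
  have hp' : (0 : ℤ) < p := by exact_mod_cast hp
  have hq' : (0 : ℤ) < q := by exact_mod_cast hq
  have hu' : (0 : ℤ) < u := by exact_mod_cast hu
  have hz' : (0 : ℤ) < z := by exact_mod_cast hz
  have hcop : IsCoprime ((u : ℤ) ^ 2) ((q : ℤ) ^ 2) := by
    have : IsCoprime (u : ℤ) (q : ℤ) := Nat.isCoprime_iff_coprime.mpr hqu.symm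
    exact this.pow
  have hdvd : (u : ℤ) ^ 2 ∣ (p : ℤ) ^ 2 - (z : ℤ) ^ 2 :=
    hcop.dvd_of_dvd_mul_left ⟨_, h⟩
  obtain ⟨D, hD⟩ := hdvd
  have hu2 : ((u : ℤ) ^ 2) ≠ 0 := by positivity
  have hD2 : 81 * (p : ℤ) ^ 2 - (z : ℤ) ^ 2 = (q : ℤ) ^ 2 * D := by
    apply mul_left_cancel₀ hu2
    rw [← h, hD]; ring
  have h80p : 80 * (p : ℤ) ^ 2 = D * ((q : ℤ) ^ 2 - (u : ℤ) ^ 2) := by
    linear_combination hD2 - hD
  have h80z : 80 * (z : ℤ) ^ 2 = D * ((q : ℤ) ^ 2 - 81 * (u : ℤ) ^ 2) := by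
    linear_combination hD2 - 81 * hD
  have hD80 : D ∣ 80 := by
    have hc : IsCoprime ((p : ℤ) ^ 2) ((z : ℤ) ^ 2) := by
      have : IsCoprime (p : ℤ) (z : ℤ) := Nat.isCoprime_iff_coprime.mpr hpz
      exact this.pow
    obtain ⟨x, y, hxy⟩ := hc
    exact ⟨x * ((q : ℤ) ^ 2 - (u : ℤ) ^ 2) + y * ((q : ℤ) ^ 2 - 81 * (u : ℤ) ^ 2), by
      linear_combination x * h80p + y * h80z - 80 * hxy⟩
  have hpz2 : ¬ ((p : ℤ) % 2 = 0 ∧ (z : ℤ) % 2 = 0) := by
    rintro ⟨h1, h2⟩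
    have : 2 ∣ Nat.gcd p z := Nat.dvd_gcd (by omega) (by omega)
    rw [hpz] at this
    omega
  have hqu2 : ¬ ((q : ℤ) % 2 = 0 ∧ (u : ℤ) % 2 = 0) := by
    rintro ⟨h1, h2⟩
    have : 2 ∣ Nat.gcd q u := Nat.dvd_gcd (by omega) (by omega)
    rw [hqu] at this
    omega
  rcases dvd_eighty_cases D hD80 with rfl | rfl | rfl | rfl | rfl | rfl | rfl | rfl | rfl | rfl |
    rfl | rfl | rfl | rfl | rfl | rfl | rfl | rfl | rfl | rfl
  · -- D = 1
    have h2 : 2 ≤ p := two_le_of_sq p z _ hz hp hD (by positivity)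
    refine ⟨9*p, z, 1*q, 9*u, hz, ?_, ?_, ?_⟩
    · exact lt_prod z p q u hz h2 hq hu
    · zify; linarith
    · zify; linarith
  · -- D = -1
    have h2 : 2 ≤ z := two_le_of_sq z p ((u:ℤ)^2 * 1) hp hz (by linarith) (by positivity)
    refine ⟨z, p, 1*u, 1*q, hp, ?_, ?_, ?_⟩
    · calc p < z * q * u * p := lt_prod p z q u hp h2 hq hu
        _ = p * q * u * z := by ring
    · zify; linarith
    · zify; linarith
  · -- D = 2
    exfalso
    rcases sq_mod_four p with hp4 | hp4 <;> rcases sq_mod_four z with hz4 | hz4 <;>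
    rcases sq_mod_four q with hq4 | hq4 <;> rcases sq_mod_four u with hu4 | hu4 <;> omega
  · -- D = -2
    exfalso
    rcases sq_mod_four p with hp4 | hp4 <;> rcases sq_mod_four z with hz4 | hz4 <;>
    rcases sq_mod_four q with hq4 | hq4 <;> rcases sq_mod_four u with hu4 | hu4 <;> omega
  · -- D = 4
    have h2 : 2 ≤ p := two_le_of_sq p z _ hz hp hD (by positivity)
    refine ⟨9*p, z, 2*q, 18*u, hz, ?_, ?_, ?_⟩
    · exact lt_prod z p q u hz h2 hq hu
    · zify; linarith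
    · zify; linarith
  · -- D = -4
    have h2 : 2 ≤ z := two_le_of_sq z p ((u:ℤ)^2 * 4) hp hz (by linarith) (by positivity)
    refine ⟨z, p, 2*u, 2*q, hp, ?_, ?_, ?_⟩
    · calc p < z * q * u * p := lt_prod p z q u hp h2 hq hu
        _ = p * q * u * z := by ring
    · zify; linarith
    · zify; linarith
  · -- D = 5
    have h2 : 2 ≤ p := two_le_of_sq p z _ hz hp hD (by positivity)
    refine ⟨q, u, 4*p, 4*z, hu, ?_, ?_, ?_⟩
    · calc u < p * q * z * u := lt_prod u p q z hu h2 hq hz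
        _ = p * q * u * z := by ring
    · zify; linarith
    · zify; linarith
  · -- D = -5
    have h2 : 2 ≤ z := two_le_of_sq z p ((u:ℤ)^2 * 5) hp hz (by linarith) (by positivity)
    refine ⟨9*u, q, 4*z, 36*p, hq, ?_, ?_, ?_⟩
    · calc q < z * p * u * q := lt_prod q z p u hq h2 hp hu
        _ = p * q * u * z := by ring
    · zify; linarith
    · zify; linarith
  · -- D = 8
    exfalso
    rcases sq_mod_four p with hp4 | hp4 <;> rcases sq_mod_four z with hz4 | hz4 <;>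
    rcases sq_mod_four q with hq4 | hq4 <;> rcases sq_mod_four u with hu4 | hu4 <;> omega
  · -- D = -8
    exfalso
    rcases sq_mod_four p with hp4 | hp4 <;> rcases sq_mod_four z with hz4 | hz4 <;>
    rcases sq_mod_four q with hq4 | hq4 <;> rcases sq_mod_four u with hu4 | hu4 <;> omega
  · -- D = 10
    exfalso
    rcases sq_mod_four p with hp4 | hp4 <;> rcases sq_mod_four z with hz4 | hz4 <;>
    rcases sq_mod_four q with hq4 | hq4 <;> rcases sq_mod_four u with hu4 | hu4 <;> omega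
  · -- D = -10
    exfalso
    rcases sq_mod_four p with hp4 | hp4 <;> rcases sq_mod_four z with hz4 | hz4 <;>
    rcases sq_mod_four q with hq4 | hq4 <;> rcases sq_mod_four u with hu4 | hu4 <;> omega
  · -- D = 16
    have h2 : 2 ≤ p := two_le_of_sq p z _ hz hp hD (by positivity)
    refine ⟨9*p, z, 4*q, 36*u, hz, ?_, ?_, ?_⟩
    · exact lt_prod z p q u hz h2 hq hu
    · zify; linarith
    · zify; linarith
  · -- D = -16
    have h2 : 2 ≤ z := two_le_of_sq z p ((u:ℤ)^2 * 16) hp hz (by linarith) (by positivity)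
    refine ⟨z, p, 4*u, 4*q, hp, ?_, ?_, ?_⟩
    · calc p < z * q * u * p := lt_prod p z q u hp h2 hq hu
        _ = p * q * u * z := by ring
    · zify; linarith
    · zify; linarith
  · -- D = 20
    have h2 : 2 ≤ p := two_le_of_sq p z _ hz hp hD (by positivity)
    refine ⟨q, u, 2*p, 2*z, hu, ?_, ?_, ?_⟩
    · calc u < p * q * z * u := lt_prod u p q z hu h2 hq hz
        _ = p * q * u * z := by ring
    · zify; linarith
    · zify; linarith
  · -- D = -20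
    have h2 : 2 ≤ z := two_le_of_sq z p ((u:ℤ)^2 * 20) hp hz (by linarith) (by positivity)
    refine ⟨9*u, q, 2*z, 18*p, hq, ?_, ?_, ?_⟩
    · calc q < z * p * u * q := lt_prod q z p u hq h2 hp hu
        _ = p * q * u * z := by ring
    · zify; linarith
    · zify; linarith
  · -- D = 40
    exfalso
    rcases sq_mod_four p with hp4 | hp4 <;> rcases sq_mod_four z with hz4 | hz4 <;>
    rcases sq_mod_four q with hq4 | hq4 <;> rcases sq_mod_four u with hu4 | hu4 <;> omega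
  · -- D = -40
    exfalso
    rcases sq_mod_four p with hp4 | hp4 <;> rcases sq_mod_four z with hz4 | hz4 <;>
    rcases sq_mod_four q with hq4 | hq4 <;> rcases sq_mod_four u with hu4 | hu4 <;> omega
  · -- D = 80
    have h2 : 2 ≤ p := two_le_of_sq p z _ hz hp hD (by positivity)
    refine ⟨q, u, 1*p, 1*z, hu, ?_, ?_, ?_⟩
    · calc u < p * q * z * u := lt_prod u p q z hu h2 hq hz
        _ = p * q * u * z := by ring
    · zify; linarith
    · zify; linarith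
  · -- D = -80
    have h2 : 2 ≤ z := two_le_of_sq z p ((u:ℤ)^2 * 80) hp hz (by linarith) (by positivity)
    refine ⟨9*u, q, 1*z, 9*p, hq, ?_, ?_, ?_⟩
    · calc q < z * p * u * q := lt_prod q z p u hq h2 hp hu
        _ = p * q * u * z := by ring
    · zify; linarith
    · zify; linarith

theorem coprime_mul_sq_add_sq (m n : ℕ) (h : Nat.Coprime m n) :
    Nat.Coprime (m * n) (m ^ 2 + n ^ 2) := by
  have h1 : Nat.Coprime m (m ^ 2 + n ^ 2) := by
    have : m ^ 2 + n ^ 2 = n ^ 2 + m * m := by ring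
    rw [this, Nat.coprime_add_mul_left_right]
    exact Nat.Coprime.pow_right 2 h
  have h2 : Nat.Coprime n (m ^ 2 + n ^ 2) := by
    have : m ^ 2 + n ^ 2 = m ^ 2 + n * n := by ring
    rw [this, Nat.coprime_add_mul_left_right]
    exact Nat.Coprime.pow_right 2 h.symm
  exact Nat.Coprime.mul_left h1 h2

/-- From the ratio identity to the two separate identities. -/
theorem eqs_of_ratio (m n k l : ℕ) (hm : 0 < m) (hn : 0 < n)
    (hmn : Nat.Coprime m n) (hkl : Nat.Coprime k l)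
    (h : (m ^ 2 + n ^ 2) * (k * l) = 9 * (k ^ 2 + l ^ 2) * (m * n)) :
    k * l = 9 * (m * n) ∧ m ^ 2 + n ^ 2 = k ^ 2 + l ^ 2 := by
  have hmnpos : 0 < m * n := Nat.mul_pos hm hn
  have h1 : m * n ∣ k * l := by
    have : m * n ∣ (m ^ 2 + n ^ 2) * (k * l) := ⟨9 * (k ^ 2 + l ^ 2), by rw [h]; ring⟩
    exact (coprime_mul_sq_add_sq m n hmn).dvd_of_dvd_mul_left this
  have h2 : k * l ∣ 9 * (m * n) := by
    have : k * l ∣ (k ^ 2 + l ^ 2) * (9 * (m * n)) := ⟨m ^ 2 + n ^ 2, by rw [← mul_assoc, mul_comm (k ^ 2 + l ^ 2) 9, ← h]; ring⟩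
    exact (coprime_mul_sq_add_sq k l hkl).dvd_of_dvd_mul_left this
  obtain ⟨c, hc⟩ := h1
  have hc9 : c ∣ 9 := by
    rw [hc, mul_comm 9 (m * n)] at h2
    exact Nat.dvd_of_mul_dvd_mul_left hmnpos h2
  have hceq : (m ^ 2 + n ^ 2) * c = 9 * (k ^ 2 + l ^ 2) := by
    apply Nat.eq_of_mul_eq_mul_left hmnpos
    rw [hc] at h
    linarith
  have hc3 : c = 1 ∨ c = 3 ∨ c = 9 := by
    have h9 : c ∈ Nat.divisors 9 := Nat.mem_divisors.mpr ⟨hc9, by norm_num⟩
    have h3 : Nat.divisors 9 = {1, 3, 9} := by decide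
    rw [h3] at h9
    simpa using h9
  rcases hc3 with rfl | rfl | rfl
  · exfalso
    have h3 : 3 ∣ m ^ 2 + n ^ 2 := by omega
    obtain ⟨h4, h5⟩ := three_dvd_of_sq_add_sq m n h3
    have : 3 ∣ Nat.gcd m n := Nat.dvd_gcd h4 h5
    rw [hmn] at this
    omega
  · exfalso
    have h3 : 3 ∣ m ^ 2 + n ^ 2 := by omega
    obtain ⟨h4, h5⟩ := three_dvd_of_sq_add_sq m n h3
    have : 3 ∣ Nat.gcd m n := Nat.dvd_gcd h4 h5
    rw [hmn] at this
    omega
  · exact ⟨by rw [hc]; ring, by omega⟩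

/-- The four-number factorisation. -/
theorem four_numbers (m n k l : ℕ) (hm : 0 < m) (hn : 0 < n)
    (hmn : Nat.Coprime m n) (hkl : Nat.Coprime k l)
    (h1 : k * l = 9 * (m * n)) (h2 : m ^ 2 + n ^ 2 = k ^ 2 + l ^ 2) :
    ∃ p q u z : ℕ, 0 < p ∧ 0 < q ∧ 0 < u ∧ 0 < z ∧ Nat.Coprime p z ∧ Nat.Coprime q u ∧
      p * q * u * z = m * n ∧
      (q : ℤ) ^ 2 * ((p : ℤ) ^ 2 - (z : ℤ) ^ 2) =
        (u : ℤ) ^ 2 * (81 * (p : ℤ) ^ 2 - (z : ℤ) ^ 2) := by
  have hp : 0 < Nat.gcd m k := Nat.gcd_pos_of_pos_left _ hm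
  have hq : 0 < Nat.gcd m l := Nat.gcd_pos_of_pos_left _ hm
  have hu : 0 < Nat.gcd n k := Nat.gcd_pos_of_pos_left _ hn
  have hz : 0 < Nat.gcd n l := Nat.gcd_pos_of_pos_left _ hn
  have hmeq : m = Nat.gcd m k * Nat.gcd m l := by
    rw [← Nat.Coprime.gcd_mul m hkl]
    exact (Nat.gcd_eq_left ⟨9 * n, by rw [h1]; ring⟩).symm
  have hneq : n = Nat.gcd n k * Nat.gcd n l := by
    rw [← Nat.Coprime.gcd_mul n hkl]
    exact (Nat.gcd_eq_left ⟨9 * m, by rw [h1]; ring⟩).symm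
  have cpu : Nat.Coprime (Nat.gcd m k) (Nat.gcd n k) :=
    Nat.Coprime.coprime_dvd_left (Nat.gcd_dvd_left m k)
      (Nat.Coprime.coprime_dvd_right (Nat.gcd_dvd_left n k) hmn)
  have cqz : Nat.Coprime (Nat.gcd m l) (Nat.gcd n l) :=
    Nat.Coprime.coprime_dvd_left (Nat.gcd_dvd_left m l)
      (Nat.Coprime.coprime_dvd_right (Nat.gcd_dvd_left n l) hmn)
  have cpz : Nat.Coprime (Nat.gcd m k) (Nat.gcd n l) :=
    Nat.Coprime.coprime_dvd_left (Nat.gcd_dvd_left m k)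
      (Nat.Coprime.coprime_dvd_right (Nat.gcd_dvd_left n l) hmn)
  have cqu : Nat.Coprime (Nat.gcd m l) (Nat.gcd n k) :=
    Nat.Coprime.coprime_dvd_left (Nat.gcd_dvd_left m l)
      (Nat.Coprime.coprime_dvd_right (Nat.gcd_dvd_left n k) hmn)
  have hkd : Nat.gcd m k * Nat.gcd n k ∣ k :=
    Nat.Coprime.mul_dvd_of_dvd_of_dvd cpu (Nat.gcd_dvd_right m k) (Nat.gcd_dvd_right n k)
  have hld : Nat.gcd m l * Nat.gcd n l ∣ l :=
    Nat.Coprime.mul_dvd_of_dvd_of_dvd cqz (Nat.gcd_dvd_right m l) (Nat.gcd_dvd_right n l)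
  obtain ⟨k', hk'⟩ := hkd
  obtain ⟨l', hl'⟩ := hld
  generalize Nat.gcd m k = p at *
  generalize Nat.gcd m l = q at *
  generalize Nat.gcd n k = u at *
  generalize Nat.gcd n l = z at *
  have hprod : k' * l' = 9 := by
    have hpos : 0 < p * q * u * z := by positivity
    apply Nat.eq_of_mul_eq_mul_left hpos
    have : k * l = 9 * (m * n) := h1
    rw [hk', hl', hmeq, hneq] at this
    linarith
  have hk'9 : k' ∣ 9 := ⟨l', hprod.symm⟩
  have hk3 : k' = 1 ∨ k' = 3 ∨ k' = 9 := by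
    have h9 : k' ∈ Nat.divisors 9 := Nat.mem_divisors.mpr ⟨hk'9, by norm_num⟩
    have h3 : Nat.divisors 9 = {1, 3, 9} := by decide
    rw [h3] at h9
    simpa using h9
  rcases hk3 with rfl | rfl | rfl
  · -- k = p u, l = 9 q z
    have hl9 : l' = 9 := by omega
    subst hl9
    refine ⟨q, p, z, u, hq, hp, hz, hu, cqu, cpz, by rw [hmeq, hneq]; ring, ?_⟩
    have h2' : ((m : ℤ)) ^ 2 + (n : ℤ) ^ 2 = (k : ℤ) ^ 2 + (l : ℤ) ^ 2 := by exact_mod_cast h2
    rw [hk', hl', hmeq, hneq] at h2'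
    push_cast at h2'
    linear_combination h2'
  · -- impossible
    exfalso
    have hl3 : l' = 3 := by omega
    subst hl3
    have : 3 ∣ Nat.gcd k l := Nat.dvd_gcd ⟨p * u, by rw [hk']; ring⟩ ⟨q * z, by rw [hl']; ring⟩
    rw [hkl] at this
    omega
  · -- k = 9 p u, l = q z
    have hl1 : l' = 1 := by omega
    subst hl1
    refine ⟨p, q, u, z, hp, hq, hu, hz, cpz, cqu, by rw [hmeq, hneq]; ring, ?_⟩
    have h2' : ((m : ℤ)) ^ 2 + (n : ℤ) ^ 2 = (k : ℤ) ^ 2 + (l : ℤ) ^ 2 := by exact_mod_cast h2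
    rw [hk', hl', hmeq, hneq] at h2'
    push_cast at h2'
    linear_combination h2'

/-- There are no natural numbers `a, e, V, W` with `e > 0`, `a^2 = e^2 + V^2` and
`a^2 = 81 e^2 + W^2` (infinite descent on `e`). -/
theorem no_nat_solution : ∀ e : ℕ, 0 < e → ∀ a V W : ℕ,
    a ^ 2 = e ^ 2 + V ^ 2 → a ^ 2 = 81 * e ^ 2 + W ^ 2 → False := by
  intro e
  induction e using Nat.strong_induction_on with
  | _ e ih =>
    intro he a V W h1 h2
    have ha : 0 < a := by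
      rcases Nat.eq_zero_or_pos a with h0 | h0
      · subst h0
        have : 0 < e ^ 2 := by positivity
        omega
      · exact h0
    obtain ⟨m, n, hmn, hm, hn⟩ := Nat.exists_coprime (a + V) e
    obtain ⟨k, l, hkl, hk, hl⟩ := Nat.exists_coprime (a + W) (9 * e)
    have hg1 : 0 < Nat.gcd (a + V) e := Nat.gcd_pos_of_pos_right _ he
    have hg2 : 0 < Nat.gcd (a + W) (9 * e) := Nat.gcd_pos_of_pos_right _ (by omega)
    generalize Nat.gcd (a + V) e = g1 at *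
    generalize Nat.gcd (a + W) (9 * e) = g2 at *
    have hmpos : 0 < m := by
      rcases Nat.eq_zero_or_pos m with h0 | h0
      · subst h0; omega
      · exact h0
    have hnpos : 0 < n := by
      rcases Nat.eq_zero_or_pos n with h0 | h0
      · subst h0; omega
      · exact h0
    have hkpos : 0 < k := by
      rcases Nat.eq_zero_or_pos k with h0 | h0
      · subst h0; omega
      · exact h0
    have hlpos : 0 < l := by
      rcases Nat.eq_zero_or_pos l with h0 | h0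
      · subst h0; omega
      · exact h0
    have hm' : (a : ℤ) + V = m * g1 := by exact_mod_cast hm
    have hn' : (e : ℤ) = n * g1 := by exact_mod_cast hn
    have hk' : (a : ℤ) + W = k * g2 := by exact_mod_cast hk
    have hl' : 9 * (e : ℤ) = l * g2 := by exact_mod_cast hl
    have h1' : (a : ℤ) ^ 2 = (e : ℤ) ^ 2 + (V : ℤ) ^ 2 := by exact_mod_cast h1
    have h2' : (a : ℤ) ^ 2 = 81 * (e : ℤ) ^ 2 + (W : ℤ) ^ 2 := by exact_mod_cast h2
    have hg1' : (g1 : ℤ) ≠ 0 := by exact_mod_cast hg1.ne'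
    have hg2' : (g2 : ℤ) ≠ 0 := by exact_mod_cast hg2.ne'
    have hA : ((m : ℤ) ^ 2 + (n : ℤ) ^ 2) * g1 = 2 * a * m := by
      apply mul_left_cancel₀ hg1'
      linear_combination (-1 : ℤ) * h1' - ((n : ℤ) * g1 + e) * hn' - ((m : ℤ) * g1 - a + V) * hm'
    have hB : ((k : ℤ) ^ 2 + (l : ℤ) ^ 2) * g2 = 2 * a * k := by
      apply mul_left_cancel₀ hg2'
      linear_combination (-1 : ℤ) * h2' - ((l : ℤ) * g2 + 9 * e) * hl' - ((k : ℤ) * g2 - a + W) * hk'
    have hratio' : ((m : ℤ) ^ 2 + (n : ℤ) ^ 2) * ((k : ℤ) * l) =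
        9 * ((k : ℤ) ^ 2 + (l : ℤ) ^ 2) * ((m : ℤ) * n) := by
      apply mul_left_cancel₀ (mul_ne_zero hg1' hg2')
      linear_combination (k : ℤ) * l * g2 * hA - 9 * (m : ℤ) * n * g1 * hB
        + 2 * (a : ℤ) * m * k * (9 * hn' - hl')
    have hratio : (m ^ 2 + n ^ 2) * (k * l) = 9 * (k ^ 2 + l ^ 2) * (m * n) := by
      exact_mod_cast hratio'
    obtain ⟨hkl9, hsq⟩ := eqs_of_ratio m n k l hmpos hnpos hmn hkl hratio
    obtain ⟨p, q, u, z, hp, hq, hu, hz, hpz, hqu, hprod, heq⟩ :=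
      four_numbers m n k l hmpos hnpos hmn hkl hkl9 hsq
    obtain ⟨a', e', V', W', he'pos, he'lt, h1n, h2n⟩ :=
      descent_core p q u z hp hq hu hz hpz hqu heq
    have hmg : m ∣ g1 := by
      have hAn : (m ^ 2 + n ^ 2) * g1 = 2 * a * m := by exact_mod_cast hA
      have hd : m ∣ (m ^ 2 + n ^ 2) * g1 := ⟨2 * a, by rw [hAn]; ring⟩
      have hc : Nat.Coprime m (m ^ 2 + n ^ 2) :=
        Nat.Coprime.coprime_dvd_left (Dvd.intro _ rfl) (coprime_mul_sq_add_sq m n hmn)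
      exact hc.dvd_of_dvd_mul_left hd
    have hmle : m ≤ g1 := Nat.le_of_dvd hg1 hmg
    have hle : m * n ≤ e := by
      rw [hn, mul_comm n g1]
      exact Nat.mul_le_mul_right n hmle
    exact ih e' (by omega) he'pos a' V' W' h1n h2n

end Fermat.Agent.S51.Concordant

namespace Fermat.Agent.S51

open Fermat.Agent.S51.Concordant in
/-- **Part C1.** There is no rational `r` such that `r^2 - 1` and `r^2 - 81` are both
rational squares. -/
theorem no_concordant (r v w : ℚ) (hv : r ^ 2 - 1 = v ^ 2) (hw : r ^ 2 - 81 = w ^ 2) : False := by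
  have he : 0 < r.den := r.den_pos
  have hnum : (r.num : ℚ) = r * r.den := (Rat.mul_den_eq_num r).symm
  have h1 : IsSquare (((r.num ^ 2 - (r.den : ℤ) ^ 2 : ℤ)) : ℚ) := by
    refine ⟨v * r.den, ?_⟩
    push_cast
    rw [hnum]
    linear_combination (r.den : ℚ) ^ 2 * hv
  have h2 : IsSquare (((r.num ^ 2 - 81 * (r.den : ℤ) ^ 2 : ℤ)) : ℚ) := by
    refine ⟨w * r.den, ?_⟩
    push_cast
    rw [hnum]
    linear_combination (r.den : ℚ) ^ 2 * hw
  rw [Rat.isSquare_intCast_iff] at h1 h2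
  obtain ⟨V, hV⟩ := h1
  obtain ⟨W, hW⟩ := h2
  refine no_nat_solution r.den he r.num.natAbs V.natAbs W.natAbs ?_ ?_
  · zify
    simp only [sq_abs]
    linarith
  · zify
    simp only [sq_abs]
    linarith

end Fermat.Agent.S51
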