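import Mathlib

/-!
# S51, piece T1 (A-dbl): the doubling formula in `x`-coordinates

For a nonsingular affine point `P = (x, y)` of a Weierstrass curve over a field with `2 • P ≠ 0`:
`x(2P) = x - Ψ₃(x) / Ψ₂Sq(x)` and `Ψ₂Sq(x) = (2y + a₁x + a₃)² ≠ 0`.

Interface theorems (namespace `Fermat.Agent.S51`): `Ψ₂Sq_eval_eq`, `doubling`.
Helper API (namespace `Fermat.Agent.S51.Doubling`): evaluation formulas for `Ψ₂Sq`, `Ψ₃`, `preΨ₄`,
the `x`-coordinate function `xc` and its basic lemmas (`xc_two_nsmul`, `two_nsmul_eq_zero_iff`,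
`eq_or_eq_neg_of_xc_eq`, ...).
-/

set_option autoImplicit false

namespace Fermat.Agent.S51

open WeierstrassCurve WeierstrassCurve.Affine WeierstrassCurve.Affine.Point Polynomial

namespace Doubling

section Eval

variable {R : Type*} [CommRing R] (W : WeierstrassCurve R)

theorem eval_Ψ₂Sq (x : R) :
    W.Ψ₂Sq.eval x = 4 * x ^ 3 + W.b₂ * x ^ 2 + 2 * W.b₄ * x + W.b₆ := by
  simp [WeierstrassCurve.Ψ₂Sq]

theorem eval_Ψ₃ (x : R) :
    W.Ψ₃.eval x = 3 * x ^ 4 + W.b₂ * x ^ 3 + 3 * W.b₄ * x ^ 2 + 3 * W.b₆ * x + W.b₈ := by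
  simp [WeierstrassCurve.Ψ₃]

theorem eval_preΨ₄ (x : R) :
    W.preΨ₄.eval x = 2 * x ^ 6 + W.b₂ * x ^ 5 + 5 * W.b₄ * x ^ 4 + 10 * W.b₆ * x ^ 3 +
      10 * W.b₈ * x ^ 2 + (W.b₂ * W.b₈ - W.b₄ * W.b₆) * x + (W.b₄ * W.b₈ - W.b₆ ^ 2) := by
  simp [WeierstrassCurve.preΨ₄]

end Eval

section Field

variable {F : Type*} [Field F] (W : Affine F)

/-- On the curve, `Ψ₂Sq(x) = (2y + a₁x + a₃)²`. -/
theorem eval_Ψ₂Sq_of_equation {x y : F} (h : W.Equation x y) :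
    W.Ψ₂Sq.eval x = (2 * y + W.a₁ * x + W.a₃) ^ 2 := by
  rw [eval_Ψ₂Sq]
  rw [Affine.equation_iff] at h
  simp only [WeierstrassCurve.b₂, WeierstrassCurve.b₄, WeierstrassCurve.b₆]
  linear_combination -4 * h

theorem sub_negY (x y : F) : y - W.negY x y = 2 * y + W.a₁ * x + W.a₃ := by
  simp only [Affine.negY]; ring

theorem ne_negY_iff (x y : F) : y ≠ W.negY x y ↔ 2 * y + W.a₁ * x + W.a₃ ≠ 0 := by
  rw [← sub_negY, sub_ne_zero]

/-- The `x`-coordinate of the double of `(x, y)` (tangent case). -/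
theorem addX_self_eq [DecidableEq F] {x y : F} (h : W.Equation x y) (hy : y ≠ W.negY x y) :
    W.addX x x (W.slope x x y y) = x - W.Ψ₃.eval x / W.Ψ₂Sq.eval x := by
  have hD : 2 * y + W.a₁ * x + W.a₃ ≠ 0 := (ne_negY_iff W x y).mp hy
  rw [Affine.slope_of_Y_ne rfl hy, eval_Ψ₃, eval_Ψ₂Sq_of_equation W h, sub_negY]
  rw [Affine.equation_iff] at h
  simp only [Affine.addX, WeierstrassCurve.b₂, WeierstrassCurve.b₄, WeierstrassCurve.b₆,
    WeierstrassCurve.b₈]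
  generalize hDg : 2 * y + W.a₁ * x + W.a₃ = D at hD ⊢
  field_simp
  subst hDg
  linear_combination (-(12 * x + W.a₁ ^ 2 + 4 * W.a₂)) * h

/-- The `x`-coordinate of a point (`0` for the point at infinity). -/
def xc : W.Point → F
  | .zero => 0
  | .some x _ _ => x

@[simp] theorem xc_some {x y : F} (h : W.Nonsingular x y) : xc W (.some x y h) = x := rfl

@[simp] theorem xc_zero : xc W (0 : W.Point) = 0 := rfl

@[simp] theorem xc_neg (P : W.Point) : xc W (-P) = xc W P := by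
  cases P <;> rfl

/-- Two affine points with the same `x`-coordinate are equal or opposite. -/
theorem eq_or_eq_neg_of_xc_eq {P Q : W.Point} (hP : P ≠ 0) (hQ : Q ≠ 0)
    (h : xc W P = xc W Q) : P = Q ∨ P = -Q := by
  rcases P with _ | ⟨x₁, y₁, h₁⟩
  · exact absurd rfl hP
  rcases Q with _ | ⟨x₂, y₂, h₂⟩
  · exact absurd rfl hQ
  exact Affine.Point.X_eq_iff.mp h

section Add

variable [DecidableEq F]

/-- `2 • P = 0` iff `Ψ₂Sq` vanishes at the `x`-coordinate of `P ≠ 0`. -/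
theorem two_nsmul_eq_zero_iff {P : W.Point} (hP : P ≠ 0) :
    2 • P = 0 ↔ W.Ψ₂Sq.eval (xc W P) = 0 := by
  rcases P with _ | ⟨x, y, h⟩
  · exact absurd rfl hP
  rw [two_nsmul, xc_some, eval_Ψ₂Sq_of_equation W h.1]
  by_cases hy : y = W.negY x y
  · rw [Affine.Point.add_self_of_Y_eq hy]
    simp only [true_iff]
    have : 2 * y + W.a₁ * x + W.a₃ = 0 := by
      rw [← sub_negY, sub_eq_zero]; exact hy
    rw [this]; ring
  · rw [Affine.Point.add_self_of_Y_ne hy]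
    have : 2 * y + W.a₁ * x + W.a₃ ≠ 0 := (ne_negY_iff W x y).mp hy
    simp [this]

/-- Doubling formula: `x(2P) = x(P) - Ψ₃(x(P)) / Ψ₂Sq(x(P))` when `P ≠ 0` and `2 • P ≠ 0`. -/
theorem xc_two_nsmul {P : W.Point} (hP : P ≠ 0) (h2 : 2 • P ≠ 0) :
    xc W (2 • P) = xc W P - W.Ψ₃.eval (xc W P) / W.Ψ₂Sq.eval (xc W P) := by
  rcases P with _ | ⟨x, y, h⟩
  · exact absurd rfl hP
  by_cases hy : y = W.negY x y
  · exact absurd (by rw [two_nsmul, Affine.Point.add_self_of_Y_eq hy]) h2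
  · rw [two_nsmul, Affine.Point.add_self_of_Y_ne hy, xc_some, xc_some]
    exact addX_self_eq W h.1 hy

/-- `Ψ₂Sq(x(P)) ≠ 0` when `P ≠ 0` and `2 • P ≠ 0`. -/
theorem eval_Ψ₂Sq_xc_ne_zero {P : W.Point} (hP : P ≠ 0) (h2 : 2 • P ≠ 0) :
    W.Ψ₂Sq.eval (xc W P) ≠ 0 :=
  fun h => h2 ((two_nsmul_eq_zero_iff W hP).mpr h)

/-- The doubling relation in product form. -/
theorem xc_two_nsmul_mul {P : W.Point} (hP : P ≠ 0) (h2 : 2 • P ≠ 0) :
    (xc W P - xc W (2 • P)) * W.Ψ₂Sq.eval (xc W P) = W.Ψ₃.eval (xc W P) := by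
  have h0 := eval_Ψ₂Sq_xc_ne_zero W hP h2
  rw [xc_two_nsmul W hP h2]
  field_simp
  ring

end Add

end Field

end Doubling

/-! ### Interface theorems -/

/-- On the curve, `Ψ₂Sq(x) = (y - negY x y)²`. -/
theorem Ψ₂Sq_eval_eq {F : Type*} [Field F] (W : Affine F) {x y : F} (h : W.Equation x y) :
    W.Ψ₂Sq.eval x = (y - W.negY x y) ^ 2 := by
  rw [Doubling.sub_negY]
  exact Doubling.eval_Ψ₂Sq_of_equation W h

/-- The doubling formula: `2 • (x, y) = (x - Ψ₃(x) / Ψ₂Sq(x), _)` when `y ≠ negY x y`. -/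
theorem doubling {F : Type*} [Field F] [DecidableEq F] (W : Affine F) {x y : F}
    (h : W.Nonsingular x y) (hy : y ≠ W.negY x y) :
    W.Ψ₂Sq.eval x ≠ 0 ∧ ∃ (y' : F) (h' : W.Nonsingular (x - W.Ψ₃.eval x / W.Ψ₂Sq.eval x) y'),
      Point.some x y h + Point.some x y h = Point.some (x - W.Ψ₃.eval x / W.Ψ₂Sq.eval x) y' h' := by
  refine ⟨?_, ?_⟩
  · rw [Ψ₂Sq_eval_eq W h.1]
    exact pow_ne_zero 2 (sub_ne_zero.mpr hy)
  · obtain ⟨x', hx'⟩ : ∃ x', x' = x - W.Ψ₃.eval x / W.Ψ₂Sq.eval x := ⟨_, rfl⟩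
    rw [← hx']
    have key : W.addX x x (W.slope x x y y) = x' := by
      rw [hx']; exact Doubling.addX_self_eq W h.1 hy
    subst key
    exact ⟨_, _, Affine.Point.add_self_of_Y_ne hy⟩

end Fermat.Agent.S51
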