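import Mathlib
import Fermat.Agent.S51.Doubling

/-!
# S51, piece T4a (A5-points): points of order 5 in `x`-coordinates

For a nonsingular point `P ≠ 0` with `5 • P = 0` on a Weierstrass curve over a field, with
`x₁ = x(P)`, `x₂ = x(2P)`:

* `x₁ ≠ x₂`, `Ψ₂Sq(x₁) ≠ 0`, `Ψ₂Sq(x₂) ≠ 0`,
* `(x₁ - x₂) * Ψ₂Sq(x₁) = Ψ₃(x₁)` and `(x₂ - x₁) * Ψ₂Sq(x₂) = Ψ₃(x₂)`,
* `x₁` is a root of `preΨ' 5 = preΨ₄ * Ψ₂Sq² - Ψ₃³` (degree 12),

hence the `5`-torsion subgroup is finite with at most `25` elements (when `5 ≠ 0` in the field).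

Everything lives in the namespace `Fermat.Agent.S51.FiveTorsionPoints`.
-/

set_option autoImplicit false

namespace Fermat.Agent.S51

open WeierstrassCurve WeierstrassCurve.Affine WeierstrassCurve.Affine.Point Polynomial

namespace FiveTorsionPoints

open Doubling

/-! ### Two polynomial identities -/

/-- First quartic identity (homogenised `Ψ₂Sq` at `x - Ψ₃/Ψ₂Sq`), a polynomial identity modulo
the relation `4 b₈ = b₂ b₆ - b₄²`. Here `Φ = 4x³+b₂x²+2b₄x+b₆`, `Ψ = 3x⁴+b₂x³+3b₄x²+3b₆x+b₈`,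
`N = xΦ - Ψ` and the right-hand side is `preΨ₄(x)²`. -/
theorem ring_identity₁ {R : Type*} [CommRing R] (x b2 b4 b6 b8 : R)
    (h : 4 * b8 = b2 * b6 - b4 ^ 2) :
    4 * (x * (4 * x ^ 3 + b2 * x ^ 2 + 2 * b4 * x + b6) - (3 * x ^ 4 + b2 * x ^ 3 + 3 * b4 * x
      ^ 2 + 3 * b6 * x + b8)) ^ 3
      + b2 * (x * (4 * x ^ 3 + b2 * x ^ 2 + 2 * b4 * x + b6) - (3 * x ^ 4 + b2 * x ^ 3 + 3 * b4
        * x ^ 2 + 3 * b6 * x + b8)) ^ 2 * (4 * x ^ 3 + b2 * x ^ 2 + 2 * b4 * x + b6)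
      + 2 * b4 * (x * (4 * x ^ 3 + b2 * x ^ 2 + 2 * b4 * x + b6) - (3 * x ^ 4 + b2 * x ^ 3 + 3
        * b4 * x ^ 2 + 3 * b6 * x + b8)) * (4 * x ^ 3 + b2 * x ^ 2 + 2 * b4 * x + b6) ^ 2
      + b6 * (4 * x ^ 3 + b2 * x ^ 2 + 2 * b4 * x + b6) ^ 3
      = (2 * x ^ 6 + b2 * x ^ 5 + 5 * b4 * x ^ 4 + 10 * b6 * x ^ 3 + 10 * b8 * x ^ 2 + (b2 * b8
        - b4 * b6) * x + (b4 * b8 - b6 ^ 2)) ^ 2 := by
  linear_combination
    (-13*x^8 - 8*x^7*b2 - x^6*b2^2 - 28*x^6*b4 - 6*x^5*b2*b4 - 38*x^5*b6 - 7*x^4*b2*b6 -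
      8*x^4*b4^2 - 22*x^4*b8 - 4*x^3*b2*b8 - 16*x^3*b4*b6 - 8*x^2*b4*b8 - 7*x^2*b6^2 - 6*x*b6*b8
      - b8^2) * h

/-- Second quartic identity (homogenised `Ψ₃` at `x - Ψ₃/Ψ₂Sq`); the right-hand side is
`Ψ₃(x) * (ψ₅(x) - preΨ₄(x)²)` with `ψ₅ = preΨ₄ Φ² - Ψ³`. -/
theorem ring_identity₂ {R : Type*} [CommRing R] (x b2 b4 b6 b8 : R)
    (h : 4 * b8 = b2 * b6 - b4 ^ 2) :
    3 * (x * (4 * x ^ 3 + b2 * x ^ 2 + 2 * b4 * x + b6) - (3 * x ^ 4 + b2 * x ^ 3 + 3 * b4 * x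
      ^ 2 + 3 * b6 * x + b8)) ^ 4
      + b2 * (x * (4 * x ^ 3 + b2 * x ^ 2 + 2 * b4 * x + b6) - (3 * x ^ 4 + b2 * x ^ 3 + 3 * b4
        * x ^ 2 + 3 * b6 * x + b8)) ^ 3 * (4 * x ^ 3 + b2 * x ^ 2 + 2 * b4 * x + b6)
      + 3 * b4 * (x * (4 * x ^ 3 + b2 * x ^ 2 + 2 * b4 * x + b6) - (3 * x ^ 4 + b2 * x ^ 3 + 3
        * b4 * x ^ 2 + 3 * b6 * x + b8)) ^ 2 * (4 * x ^ 3 + b2 * x ^ 2 + 2 * b4 * x + b6) ^ 2
      + 3 * b6 * (x * (4 * x ^ 3 + b2 * x ^ 2 + 2 * b4 * x + b6) - (3 * x ^ 4 + b2 * x ^ 3 + 3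
        * b4 * x ^ 2 + 3 * b6 * x + b8)) * (4 * x ^ 3 + b2 * x ^ 2 + 2 * b4 * x + b6) ^ 3
      + b8 * (4 * x ^ 3 + b2 * x ^ 2 + 2 * b4 * x + b6) ^ 4
      = (3 * x ^ 4 + b2 * x ^ 3 + 3 * b4 * x ^ 2 + 3 * b6 * x + b8) * ((2 * x ^ 6 + b2 * x ^ 5
        + 5 * b4 * x ^ 4 + 10 * b6 * x ^ 3 + 10 * b8 * x ^ 2 + (b2 * b8 - b4 * b6) * x + (b4 * b8
        - b6 ^ 2)) * (4 * x ^ 3 + b2 * x ^ 2 + 2 * b4 * x + b6) ^ 2 - (3 * x ^ 4 + b2 * x ^ 3 + 3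
        * b4 * x ^ 2 + 3 * b6 * x + b8) ^ 3 - (2 * x ^ 6 + b2 * x ^ 5 + 5 * b4 * x ^ 4 + 10 * b6
        * x ^ 3 + 10 * b8 * x ^ 2 + (b2 * b8 - b4 * b6) * x + (b4 * b8 - b6 ^ 2)) ^ 2) := by
  linear_combination
    (-9*x^12 - 3*x^11*b2 + 27*x^10*b4 + 18*x^9*b2*b4 + 81*x^9*b6 + 2*x^8*b2^2*b4 + 45*x^8*b2*b6
      + 48*x^8*b4^2 + 63*x^8*b8 + 5*x^7*b2^2*b6 + 10*x^7*b2*b4^2 + 34*x^7*b2*b8 + 162*x^7*b4*b6 +
      4*x^6*b2^2*b8 + 33*x^6*b2*b4*b6 + 12*x^6*b4^3 + 102*x^6*b4*b8 + 108*x^6*b6^2 +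
      22*x^5*b2*b4*b8 + 21*x^5*b2*b6^2 + 48*x^5*b4^2*b6 + 114*x^5*b6*b8 + 23*x^4*b2*b6*b8 +
      28*x^4*b4^2*b8 + 54*x^4*b4*b6^2 + 25*x^4*b8^2 + 5*x^3*b2*b8^2 + 54*x^3*b4*b6*b8 +
      18*x^3*b6^3 + 11*x^2*b4*b8^2 + 24*x^2*b6^2*b8 + 9*x*b6*b8^2 + b8^3) * h


section Curve

variable {R : Type*} [CommRing R] (W : WeierstrassCurve R)

/-- The fifth division polynomial (in `x`). -/
theorem preΨ'_five : W.preΨ' 5 = W.preΨ₄ * W.Ψ₂Sq ^ 2 - W.Ψ₃ ^ 3 := by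
  have h := W.preΨ'_odd 0
  simpa using h

theorem eval_preΨ'_five (x : R) :
    (W.preΨ' 5).eval x = W.preΨ₄.eval x * W.Ψ₂Sq.eval x ^ 2 - W.Ψ₃.eval x ^ 3 := by
  rw [preΨ'_five]
  simp

end Curve

section Field

variable {F : Type*} [Field F] (W : Affine F)

/-- `Ψ₂Sq` at the `x`-coordinate of the double: `Ψ₂Sq(x₂) * Ψ₂Sq(x)³ = preΨ₄(x)²`. -/
theorem eval_Ψ₂Sq_double {x : F} (hx : W.Ψ₂Sq.eval x ≠ 0) :
    W.Ψ₂Sq.eval (x - W.Ψ₃.eval x / W.Ψ₂Sq.eval x) * W.Ψ₂Sq.eval x ^ 3 = W.preΨ₄.eval x ^ 2 := by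
  have hΦ := eval_Ψ₂Sq W x
  have hS := eval_Ψ₃ W x
  have hQ := eval_preΨ₄ W x
  have h1 := ring_identity₁ x W.b₂ W.b₄ W.b₆ W.b₈ W.b_relation
  rw [← hΦ, ← hS, ← hQ] at h1
  rw [eval_Ψ₂Sq W (x - _)]
  field_simp
  linear_combination h1

/-- `Ψ₃` at the `x`-coordinate of the double:
`Ψ₃(x₂) * Ψ₂Sq(x)⁴ = Ψ₃(x) * (ψ₅(x) - preΨ₄(x)²)`. -/
theorem eval_Ψ₃_double {x : F} (hx : W.Ψ₂Sq.eval x ≠ 0) :
    W.Ψ₃.eval (x - W.Ψ₃.eval x / W.Ψ₂Sq.eval x) * W.Ψ₂Sq.eval x ^ 4 =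
      W.Ψ₃.eval x * ((W.preΨ' 5).eval x - W.preΨ₄.eval x ^ 2) := by
  have hΦ := eval_Ψ₂Sq W x
  have hS := eval_Ψ₃ W x
  have hQ := eval_preΨ₄ W x
  have h2 := ring_identity₂ x W.b₂ W.b₄ W.b₆ W.b₈ W.b_relation
  rw [← hΦ, ← hS, ← hQ] at h2
  rw [eval_preΨ'_five, eval_Ψ₃ W (x - _)]
  field_simp
  linear_combination h2

section Points

variable [DecidableEq F]

/-- Group-theoretic consequences of `5 • P = 0`, `P ≠ 0`. -/
theorem five_torsion_aux {P : W.Point} (hP : P ≠ 0) (h5 : 5 • P = 0) :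
    2 • P ≠ 0 ∧ 2 • (2 • P) ≠ 0 ∧ 2 • (2 • P) = -P ∧ xc W P ≠ xc W (2 • P) := by
  have e1 : P = 5 • P - 2 • (2 • P) := by abel
  have h2 : 2 • P ≠ 0 := by
    intro h
    apply hP
    rw [e1, h5, h]
    simp
  have h4 : 2 • (2 • P) ≠ 0 := by
    intro h
    apply hP
    rw [e1, h5, h]
    simp
  have h4' : 2 • (2 • P) = -P := by
    apply eq_neg_of_add_eq_zero_left
    rw [← h5]
    abel
  refine ⟨h2, h4, h4', ?_⟩
  intro hx
  rcases eq_or_eq_neg_of_xc_eq W hP h2 hx with h | h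
  · apply hP
    have e2 : P = 2 • P - P := by abel
    rw [e2, ← h]
    simp
  · apply hP
    have h3 : 2 • P + P = 0 := by
      have := congrArg (fun Q => 2 • P + Q) h
      simpa using this
    calc P = 2 • (2 • P + P) - 5 • P := by abel
      _ = 0 := by rw [h3, h5]; simp

/-- The `x`-coordinate relations for a point of order `5`. -/
theorem five_torsion_relations {P : W.Point} (hP : P ≠ 0) (h5 : 5 • P = 0) :
    xc W P ≠ xc W (2 • P) ∧ W.Ψ₂Sq.eval (xc W P) ≠ 0 ∧ W.Ψ₂Sq.eval (xc W (2 • P)) ≠ 0 ∧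
      (xc W P - xc W (2 • P)) * W.Ψ₂Sq.eval (xc W P) = W.Ψ₃.eval (xc W P) ∧
      (xc W (2 • P) - xc W P) * W.Ψ₂Sq.eval (xc W (2 • P)) = W.Ψ₃.eval (xc W (2 • P)) := by
  obtain ⟨h2, h4, h4', hne⟩ := five_torsion_aux W hP h5
  refine ⟨hne, eval_Ψ₂Sq_xc_ne_zero W hP h2, eval_Ψ₂Sq_xc_ne_zero W h2 h4,
    xc_two_nsmul_mul W hP h2, ?_⟩
  have h := xc_two_nsmul_mul W h2 h4
  rwa [h4', xc_neg] at h

/-- The `x`-coordinate of a point of order `5` is a root of the fifth division polynomial. -/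
theorem eval_preΨ'_five_xc {P : W.Point} (hP : P ≠ 0) (h5 : 5 • P = 0) :
    (W.preΨ' 5).eval (xc W P) = 0 := by
  obtain ⟨hne, hΦ, hΦ₂, hr1, hr2⟩ := five_torsion_relations W hP h5
  obtain ⟨h2, -, -, -⟩ := five_torsion_aux W hP h5
  have hx₂ := xc_two_nsmul W hP h2
  have hI1 := eval_Ψ₂Sq_double W hΦ
  have hI2 := eval_Ψ₃_double W hΦ
  rw [← hx₂] at hI1 hI2
  have hS : W.Ψ₃.eval (xc W P) ≠ 0 := by
    rw [← hr1]
    exact mul_ne_zero (sub_ne_zero.mpr hne) hΦ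
  have key : W.Ψ₃.eval (xc W P) * (W.preΨ' 5).eval (xc W P) = 0 := by
    linear_combination (-1 : F) * hI2 - W.Ψ₃.eval (xc W P) * hI1
      - W.Ψ₂Sq.eval (xc W P) ^ 4 * hr2
      - W.Ψ₂Sq.eval (xc W (2 • P)) * W.Ψ₂Sq.eval (xc W P) ^ 3 * hr1
  exact (mul_eq_zero.mp key).resolve_left hS

omit [DecidableEq F] in
/-- The set of nonzero points with a given `x`-coordinate is finite with at most two elements. -/
theorem fibre_finite_ncard_le (x : F) :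
    {P : W.Point | P ≠ 0 ∧ xc W P = x}.Finite ∧ {P : W.Point | P ≠ 0 ∧ xc W P = x}.ncard ≤ 2 := by
  by_cases hne : {P : W.Point | P ≠ 0 ∧ xc W P = x}.Nonempty
  · obtain ⟨P₀, hP₀, hx₀⟩ := hne
    have hsub : {P : W.Point | P ≠ 0 ∧ xc W P = x} ⊆ {P₀, -P₀} := by
      rintro P ⟨hP, hx⟩
      rcases eq_or_eq_neg_of_xc_eq W hP hP₀ (hx.trans hx₀.symm) with h | h
      · exact Or.inl h
      · exact Or.inr h
    have hfin : ({P₀, -P₀} : Set W.Point).Finite := by simp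
    refine ⟨hfin.subset hsub, (Set.ncard_le_ncard hsub hfin).trans ?_⟩
    exact (Set.ncard_insert_le P₀ {-P₀}).trans (by rw [Set.ncard_singleton])
  · rw [Set.not_nonempty_iff_eq_empty] at hne
    rw [hne]
    simp

/-- The `5`-torsion points form a finite set with at most `25` elements. -/
theorem five_torsion_finite_ncard_le (h5 : (5 : F) ≠ 0) :
    {P : W.Point | 5 • P = 0}.Finite ∧ {P : W.Point | 5 • P = 0}.ncard ≤ 25 := by
  classical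
  have h5' : ((5 : ℕ) : F) ≠ 0 := by exact_mod_cast h5
  have hne : W.preΨ' 5 ≠ 0 := W.preΨ'_ne_zero h5'
  have hdeg : (W.preΨ' 5).natDegree = 12 := by
    rw [W.natDegree_preΨ' h5']
    norm_num
  set Rts : Finset F := (W.preΨ' 5).roots.toFinset with hRts
  have hRcard : Rts.card ≤ 12 := by
    calc Rts.card ≤ Multiset.card (W.preΨ' 5).roots := Multiset.toFinset_card_le _
      _ ≤ (W.preΨ' 5).natDegree := Polynomial.card_roots' _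
      _ = 12 := hdeg
  have hfib := fibre_finite_ncard_le W
  set U : Finset W.Point := Rts.biUnion (fun x => (hfib x).1.toFinset) with hU
  have hUcard : U.card ≤ 24 := by
    calc U.card ≤ ∑ x ∈ Rts, ((hfib x).1.toFinset).card := Finset.card_biUnion_le
      _ ≤ ∑ _x ∈ Rts, 2 := by
          apply Finset.sum_le_sum
          intro x _
          rw [← Set.ncard_eq_toFinset_card _ (hfib x).1]
          exact (hfib x).2
      _ = Rts.card * 2 := by simp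
      _ ≤ 24 := by omega
  have hsub : {P : W.Point | 5 • P = 0} ⊆ ((insert 0 U : Finset W.Point) : Set W.Point) := by
    intro P hP
    change 5 • P = 0 at hP
    rw [Finset.coe_insert, Set.mem_insert_iff]
    by_cases h0 : P = 0
    · exact Or.inl h0
    · right
      rw [Finset.mem_coe, hU, Finset.mem_biUnion]
      refine ⟨xc W P, ?_, ?_⟩
      · rw [hRts, Multiset.mem_toFinset, Polynomial.mem_roots hne]
        exact eval_preΨ'_five_xc W h0 hP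
      · rw [Set.Finite.mem_toFinset]
        exact ⟨h0, rfl⟩
  have hfin : (((insert 0 U : Finset W.Point) : Set W.Point)).Finite := Finset.finite_toSet _
  refine ⟨hfin.subset hsub, ?_⟩
  calc {P : W.Point | 5 • P = 0}.ncard
      ≤ (((insert 0 U : Finset W.Point) : Set W.Point)).ncard := Set.ncard_le_ncard hsub hfin
    _ = (insert 0 U : Finset W.Point).card := Set.ncard_coe_finset _
    _ ≤ U.card + 1 := Finset.card_insert_le _ _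
    _ ≤ 25 := by omega

theorem torsionBy_five_carrier :
    ((Submodule.torsionBy ℤ W.Point ((5 : ℕ) : ℤ) : Submodule ℤ W.Point) : Set W.Point) =
      {P : W.Point | 5 • P = 0} := by
  ext P
  rw [SetLike.mem_coe, Submodule.mem_torsionBy_iff, natCast_zsmul]
  rfl

/-- The `5`-torsion submodule is finite. -/
theorem finite_torsionBy_five (h5 : (5 : F) ≠ 0) :
    Finite (Submodule.torsionBy ℤ W.Point ((5 : ℕ) : ℤ)) := by
  have h := (five_torsion_finite_ncard_le W h5).1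
  rw [← torsionBy_five_carrier] at h
  exact h.to_subtype

/-- The `5`-torsion submodule has at most `25` elements. -/
theorem card_torsionBy_five_le (h5 : (5 : F) ≠ 0) :
    Nat.card (Submodule.torsionBy ℤ W.Point ((5 : ℕ) : ℤ)) ≤ 25 := by
  have h := (five_torsion_finite_ncard_le W h5).2
  rw [← torsionBy_five_carrier] at h
  exact h

end Points

end Field

end FiveTorsionPoints

end Fermat.Agent.S51
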