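import Mathlib
import Fermat.Prelude.Def_FLTPrelim_GaloisRep
import Fermat.Agent.S51.Doubling
import Fermat.Agent.S51.FiveTorsionPoints

/-!
# S51, piece T4b (A5-nontriv): the `5`-torsion of an elliptic curve over `ℚ̄` is nontrivial

A root `x` of the fifth division polynomial `preΨ' 5 = preΨ₄ * Ψ₂Sq² - Ψ₃³` is the `x`-coordinate
of a point of exact order `5`.

Interface theorem (namespace `Fermat.Agent.S51`): `nontrivial_five_torsion`.
Helper lemmas live in `Fermat.Agent.S51.FiveNontrivial`.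
-/

set_option autoImplicit false

namespace Fermat.Agent.S51

open WeierstrassCurve WeierstrassCurve.Affine WeierstrassCurve.Affine.Point Polynomial

namespace FiveNontrivial

open Doubling FiveTorsionPoints

section Field

variable {F : Type*} [Field F] (W : Affine F)

/-- The polynomial identity behind the doubling formula. -/
theorem dbl_identity {x y : F} (h : W.Equation x y) :
    (3 * x ^ 2 + 2 * W.a₂ * x + W.a₄ - W.a₁ * y) ^ 2
      + W.a₁ * (3 * x ^ 2 + 2 * W.a₂ * x + W.a₄ - W.a₁ * y) * (y - W.negY x y)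
      - (W.a₂ + 2 * x) * (y - W.negY x y) ^ 2 = x * W.Ψ₂Sq.eval x - W.Ψ₃.eval x := by
  rw [Affine.equation_iff] at h
  rw [eval_Ψ₃, eval_Ψ₂Sq]
  simp only [WeierstrassCurve.b₂, WeierstrassCurve.b₄, WeierstrassCurve.b₆, WeierstrassCurve.b₈,
    Affine.negY]
  linear_combination (-(W.a₁ ^ 2 + 4 * W.a₂ + 8 * x)) * h

/-- At (the `x`-coordinate of) a nonzero point, `Ψ₂Sq` and `Ψ₃` do not vanish simultaneously. -/
theorem Ψ₃_ne_zero_of_Ψ₂Sq_eq_zero {P : W.Point} (hP : P ≠ 0)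
    (h2 : W.Ψ₂Sq.eval (xc W P) = 0) : W.Ψ₃.eval (xc W P) ≠ 0 := by
  rcases P with _ | ⟨x, y, h⟩
  · exact absurd rfl hP
  rw [xc_some] at h2 ⊢
  have key := dbl_identity W h.1
  rw [h2] at key
  rw [Ψ₂Sq_eval_eq W h.1] at h2
  have hu : y - W.negY x y = 0 := by simpa using h2
  rw [hu] at key
  have hns := (Affine.nonsingular_iff' x y).mp h
  have hn : W.a₁ * y - (3 * x ^ 2 + 2 * W.a₂ * x + W.a₄) ≠ 0 := by
    rcases hns.2 with h1 | h1
    · exact h1
    · exfalso; apply h1; simp only [Affine.negY] at hu; linear_combination hu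
  intro h3
  apply hn
  have : (W.a₁ * y - (3 * x ^ 2 + 2 * W.a₂ * x + W.a₄)) ^ 2 = 0 := by
    linear_combination key - h3
  simpa using this

/-- Over an algebraically closed field, every `x` is the `x`-coordinate of a nonzero point of an
elliptic curve. -/
theorem exists_point_of_x [IsAlgClosed F] (hΔ : W.Δ ≠ 0) (x : F) :
    ∃ P : W.Point, P ≠ 0 ∧ xc W P = x := by
  obtain ⟨y, hy⟩ := IsAlgClosed.exists_root
    (C (1 : F) * X ^ 2 + C (W.a₁ * x + W.a₃) * X +
      C (-(x ^ 3 + W.a₂ * x ^ 2 + W.a₄ * x + W.a₆)))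
    (by rw [degree_quadratic one_ne_zero]; norm_num)
  have heq : W.Equation x y := by
    rw [Affine.equation_iff]
    simp only [IsRoot, eval_add, eval_mul, eval_C, eval_pow, eval_X] at hy
    linear_combination hy
  exact ⟨.some x y ((Affine.equation_iff_nonsingular_of_Δ_ne_zero hΔ).mp heq),
    Affine.Point.some_ne_zero _, rfl⟩

variable [DecidableEq F]

/-- A nonzero point whose `x`-coordinate is a root of the fifth division polynomial has
order `5`. -/
theorem five_nsmul_eq_zero_of_root {P : W.Point} (hP : P ≠ 0)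
    (hroot : (W.preΨ' 5).eval (xc W P) = 0) : 5 • P = 0 := by
  rw [eval_preΨ'_five] at hroot
  -- `Ψ₂Sq(x) ≠ 0`
  have hΦ : W.Ψ₂Sq.eval (xc W P) ≠ 0 := by
    intro h0
    apply Ψ₃_ne_zero_of_Ψ₂Sq_eq_zero W hP h0
    rw [h0] at hroot
    have : W.Ψ₃.eval (xc W P) ^ 3 = 0 := by linear_combination -hroot
    simpa using this
  have h2 : 2 • P ≠ 0 := fun h0 => hΦ ((two_nsmul_eq_zero_iff W hP).mp h0)
  have hx₂ := xc_two_nsmul W hP h2
  have hI1 := eval_Ψ₂Sq_double W hΦ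
  have hI2 := eval_Ψ₃_double W hΦ
  rw [eval_preΨ'_five, hroot] at hI2
  rw [← hx₂] at hI1 hI2
  have hr1 := xc_two_nsmul_mul W hP h2
  -- `preΨ₄(x) ≠ 0`
  have hQ : W.preΨ₄.eval (xc W P) ≠ 0 := by
    intro h0
    rw [h0] at hroot hI1
    have hΨ : W.Ψ₃.eval (xc W P) = 0 := by
      have : W.Ψ₃.eval (xc W P) ^ 3 = 0 := by linear_combination -hroot
      simpa using this
    rw [hΨ] at hr1
    have hxx : xc W P = xc W (2 • P) := by
      rcases mul_eq_zero.mp hr1 with h | h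
      · exact sub_eq_zero.mp h
      · exact absurd h hΦ
    rw [← hxx] at hI1
    apply hΦ
    have : W.Ψ₂Sq.eval (xc W P) ^ 4 = 0 := by linear_combination hI1
    simpa using this
  have hΨ : W.Ψ₃.eval (xc W P) ≠ 0 := by
    intro h0
    rw [h0] at hroot
    have : W.preΨ₄.eval (xc W P) * W.Ψ₂Sq.eval (xc W P) ^ 2 = 0 := by linear_combination hroot
    rcases mul_eq_zero.mp this with h | h
    · exact hQ h
    · exact hΦ (by simpa using h)
  have hΦ₂ : W.Ψ₂Sq.eval (xc W (2 • P)) ≠ 0 := by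
    intro h0
    rw [h0] at hI1
    apply hQ
    have : W.preΨ₄.eval (xc W P) ^ 2 = 0 := by linear_combination -hI1
    simpa using this
  have h4 : 2 • (2 • P) ≠ 0 := fun h0 => hΦ₂ ((two_nsmul_eq_zero_iff W h2).mp h0)
  have hr2 := xc_two_nsmul_mul W h2 h4
  -- `x(4P) = x(P)`
  have hx₄ : xc W (2 • (2 • P)) = xc W P := by
    have hc : W.Ψ₂Sq.eval (xc W (2 • P)) * W.Ψ₂Sq.eval (xc W P) ^ 4 ≠ 0 :=
      mul_ne_zero hΦ₂ (pow_ne_zero 4 hΦ)
    have : (xc W (2 • (2 • P)) - xc W P) *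
        (W.Ψ₂Sq.eval (xc W (2 • P)) * W.Ψ₂Sq.eval (xc W P) ^ 4) = 0 := by
      linear_combination (-W.Ψ₂Sq.eval (xc W P) ^ 4) * hr2 - hI2
        - W.Ψ₃.eval (xc W P) * hI1
        - W.Ψ₂Sq.eval (xc W (2 • P)) * W.Ψ₂Sq.eval (xc W P) ^ 3 * hr1
    rcases mul_eq_zero.mp this with h | h
    · exact sub_eq_zero.mp h
    · exact absurd h hc
  rcases eq_or_eq_neg_of_xc_eq W h4 hP hx₄ with h | h
  · -- `4P = P`, so `3P = 0`, so `x(2P) = x(P)`, contradiction
    exfalso
    have h3 : 2 • P = -P := by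
      have e : 2 • P = 2 • (2 • P) - P - P := by abel
      rw [e, h]; abel
    rw [h3, xc_neg, sub_self, zero_mul] at hr1
    exact hΨ hr1.symm
  · have e : 5 • P = 2 • (2 • P) + P := by abel
    rw [e, h]; abel

/-- An elliptic curve over an algebraically closed field in which `5 ≠ 0` has a point of
order `5`. -/
theorem exists_five_torsion_point [IsAlgClosed F] (hΔ : W.Δ ≠ 0) (h5 : (5 : F) ≠ 0) :
    ∃ P : W.Point, P ≠ 0 ∧ 5 • P = 0 := by
  have h5' : ((5 : ℕ) : F) ≠ 0 := by exact_mod_cast h5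
  have hne : W.preΨ' 5 ≠ 0 := W.preΨ'_ne_zero h5'
  have hdeg : (W.preΨ' 5).natDegree = 12 := by
    rw [W.natDegree_preΨ' h5']
    norm_num
  obtain ⟨x, hx⟩ := IsAlgClosed.exists_root (W.preΨ' 5)
    (by rw [degree_eq_natDegree hne, hdeg]; norm_num)
  obtain ⟨P, hP0, hPx⟩ := exists_point_of_x W hΔ x
  exact ⟨P, hP0, five_nsmul_eq_zero_of_root W hP0 (by rw [hPx]; exact hx)⟩

end Field

end FiveNontrivial

/-- **T4b.** The `5`-torsion of an elliptic curve over `ℚ`, taken over `ℚ̄`, is nontrivial. -/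
theorem nontrivial_five_torsion (E : WeierstrassCurve ℚ) (hΔ : E.Δ ≠ 0) :
    Nontrivial (Submodule.torsionBy ℤ (E⁄(AlgebraicClosure ℚ)).Point ((5 : ℕ) : ℤ)) := by
  have hΔK : (E⁄(AlgebraicClosure ℚ)).Δ ≠ 0 := by
    show (E.map (algebraMap ℚ (AlgebraicClosure ℚ))).Δ ≠ 0
    rw [WeierstrassCurve.map_Δ]
    simpa using hΔ
  obtain ⟨P, hP0, hP5⟩ := FiveNontrivial.exists_five_torsion_point
    (E⁄(AlgebraicClosure ℚ)) hΔK (by norm_num)
  refine ⟨⟨⟨P, ?_⟩, 0, ?_⟩⟩
  · rw [Submodule.mem_torsionBy_iff, natCast_zsmul]; exact hP5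
  · intro h; exact hP0 (congrArg Subtype.val h)

end Fermat.Agent.S51
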