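import Mathlib

/-!
# S51, piece T2 (A-line): proper nonzero submodules of small `ZMod p`-modules are lines

A proper nonzero `ZMod p`-submodule of a `ZMod p`-module with at most `p ^ 2` elements is
generated by a single element, and every element of it is an integer multiple of the generator.
Pure linear algebra (dimension count).
-/

set_option autoImplicit false

namespace Fermat.Agent.S51

/-- A proper nonzero submodule of a `ZMod p`-module with at most `p ^ 2` elements is a line:
it contains a nonzero `P` such that every element of the submodule is an integer multiple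
of `P`. -/
theorem stable_line {p : ℕ} [Fact p.Prime] {G : Type*} [AddCommGroup G] [Module (ZMod p) G]
    [Finite G] (hcard : Nat.card G ≤ p ^ 2) (N : Submodule (ZMod p) G) (hbot : N ≠ ⊥)
    (htop : N ≠ ⊤) : ∃ P ∈ N, P ≠ 0 ∧ ∀ Q ∈ N, ∃ m : ℤ, Q = m • P := by
  have hp : p.Prime := Fact.out
  have hV : Module.finrank (ZMod p) G ≤ 2 := by
    have h1 := Module.natCard_eq_pow_finrank (K := ZMod p) (V := G)
    rw [Nat.card_zmod] at h1
    rw [h1] at hcard
    exact (Nat.pow_le_pow_iff_right hp.one_lt).mp hcard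
  have hN1 : Module.finrank (ZMod p) N < Module.finrank (ZMod p) G := Submodule.finrank_lt htop
  have hN0 : Module.finrank (ZMod p) N ≠ 0 := fun h0 => hbot (Submodule.finrank_eq_zero.mp h0)
  have hN : Module.finrank (ZMod p) N = 1 := by omega
  obtain ⟨v, hv, hspan⟩ := finrank_eq_one_iff'.mp hN
  refine ⟨v.1, v.2, fun h => hv (Subtype.ext h), fun Q hQ => ?_⟩
  obtain ⟨c, hc⟩ := hspan ⟨Q, hQ⟩
  have hc' : c • (v : G) = Q := congrArg Subtype.val hc
  refine ⟨(c.cast : ℤ), ?_⟩
  rw [← hc', ← Int.cast_smul_eq_zsmul (ZMod p), ZMod.intCast_zmod_cast]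

/-- Variant of `stable_line` with natural-number multiples. -/
theorem stable_line_nat {p : ℕ} [Fact p.Prime] {G : Type*} [AddCommGroup G] [Module (ZMod p) G]
    [Finite G] (hcard : Nat.card G ≤ p ^ 2) (N : Submodule (ZMod p) G) (hbot : N ≠ ⊥)
    (htop : N ≠ ⊤) : ∃ P ∈ N, P ≠ 0 ∧ ∀ Q ∈ N, ∃ m : ℕ, m < p ∧ Q = m • P := by
  have hp : p.Prime := Fact.out
  have : NeZero p := ⟨hp.ne_zero⟩
  obtain ⟨P, hPN, hP0, hall⟩ := stable_line hcard N hbot htop
  refine ⟨P, hPN, hP0, fun Q hQ => ?_⟩
  obtain ⟨m, rfl⟩ := hall Q hQ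
  refine ⟨((m : ZMod p)).val, ZMod.val_lt _, ?_⟩
  rw [← Int.cast_smul_eq_zsmul (ZMod p), ← Nat.cast_smul_eq_nsmul (ZMod p), ZMod.natCast_zmod_val]

end Fermat.Agent.S51
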