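import Mathlib
import Fermat.Prelude.Def_FLTPrelim_GaloisRep
import Fermat.Agent.S51.StableLine
import Fermat.Agent.S51.FiveTorsionPoints
import Fermat.Agent.S51.FiveNontrivial

/-!
# S51, piece T4c (A5-final): a reducible mod-5 representation gives the quintic data

If the mod-`5` representation of an elliptic curve `E/ℚ` is not irreducible, there is a
Galois-stable line `{0, ±P, ±2P}` in `E[5]`; with `x₁ = x(P)`, `x₂ = x(2P)` the set `{x₁, x₂}`
is Galois-stable and the two doubling relations hold.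

Interface theorem (namespace `Fermat.Agent.S51`): `exists_quintic_data`.
Helper lemmas live in `Fermat.Agent.S51.FiveTorsion`.
-/

set_option autoImplicit false

namespace Fermat.Agent.S51

open WeierstrassCurve WeierstrassCurve.Affine WeierstrassCurve.Affine.Point Polynomial

namespace FiveTorsion

open Doubling

/-- Galois acts on `x`-coordinates through its action on the field. -/
theorem xc_galois_smul (E : WeierstrassCurve ℚ)
    (σ : AlgebraicClosure ℚ ≃ₐ[ℚ] AlgebraicClosure ℚ) (P : (E⁄(AlgebraicClosure ℚ)).Point) :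
    xc (E⁄(AlgebraicClosure ℚ)) (σ • P) = σ (xc (E⁄(AlgebraicClosure ℚ)) P) := by
  rcases P with _ | ⟨x, y, h⟩
  · exact (map_zero σ).symm
  · rfl

/-- Galois maps nonzero points to nonzero points. -/
theorem galois_smul_ne_zero (E : WeierstrassCurve ℚ)
    (σ : AlgebraicClosure ℚ ≃ₐ[ℚ] AlgebraicClosure ℚ) {P : (E⁄(AlgebraicClosure ℚ)).Point}
    (hP : P ≠ 0) : σ • P ≠ 0 := by
  rcases P with _ | ⟨x, y, h⟩
  · exact absurd rfl hP
  · rw [algEquiv_smul_def, map_some]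
    exact some_ne_zero _

/-- The Galois action commutes with multiplication by natural numbers. -/
theorem galois_smul_nsmul (E : WeierstrassCurve ℚ)
    (σ : AlgebraicClosure ℚ ≃ₐ[ℚ] AlgebraicClosure ℚ) (n : ℕ)
    (P : (E⁄(AlgebraicClosure ℚ)).Point) : σ • (n • P) = n • (σ • P) := by
  rw [algEquiv_smul_def, algEquiv_smul_def, map_nsmul]

/-- Multiples of an element killed by `5`. -/
theorem nsmul_facts {G : Type*} [AddCommGroup G] {Q : G} (h5 : (5 : ℕ) • Q = 0) :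
    ((3 : ℕ) • Q : G) = -((2 : ℕ) • Q : G) ∧ ((2 : ℕ) • ((3 : ℕ) • Q) : G) = Q ∧
      ((4 : ℕ) • Q : G) = -Q ∧ ((2 : ℕ) • ((4 : ℕ) • Q) : G) = -((2 : ℕ) • Q : G) := by
  refine ⟨?_, ?_, ?_, ?_⟩
  · have e : ((3 : ℕ) • Q : G) = ((5 : ℕ) • Q : G) - ((2 : ℕ) • Q : G) := by abel
    rw [e, h5, zero_sub]
  · have e : ((2 : ℕ) • ((3 : ℕ) • Q) : G) = Q + ((5 : ℕ) • Q : G) := by abel
    rw [e, h5, add_zero]
  · have e : ((4 : ℕ) • Q : G) = ((5 : ℕ) • Q : G) - Q := by abel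
    rw [e, h5, zero_sub]
  · have e : ((2 : ℕ) • ((4 : ℕ) • Q) : G) =
        ((2 : ℕ) • ((5 : ℕ) • Q) : G) - ((2 : ℕ) • Q : G) := by abel
    rw [e, h5, nsmul_zero, zero_sub]

end FiveTorsion

open Doubling FiveTorsionPoints FiveTorsion in
/-- **T4c.** If the mod-`5` representation of `E/ℚ` is not irreducible, there are
`x₁ ≠ x₂` in `ℚ̄` (the `x`-coordinates of `P` and `2P` for a point `P` of order `5` spanning a
Galois-stable line), permuted by Galois, satisfying the two doubling relations. -/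
theorem exists_quintic_data (E : WeierstrassCurve ℚ) (hΔ : E.Δ ≠ 0)
    (h : ¬ GaloisRepIsIrreducible (K := AlgebraicClosure ℚ) ℚ E 5) :
    ∃ x₁ x₂ : AlgebraicClosure ℚ, x₁ ≠ x₂ ∧
      (∀ σ : AlgebraicClosure ℚ ≃ₐ[ℚ] AlgebraicClosure ℚ,
        (σ x₁ = x₁ ∧ σ x₂ = x₂) ∨ (σ x₁ = x₂ ∧ σ x₂ = x₁)) ∧
      (E⁄(AlgebraicClosure ℚ)).Ψ₂Sq.eval x₁ ≠ 0 ∧ (E⁄(AlgebraicClosure ℚ)).Ψ₂Sq.eval x₂ ≠ 0 ∧
      (x₁ - x₂) * (E⁄(AlgebraicClosure ℚ)).Ψ₂Sq.eval x₁ = (E⁄(AlgebraicClosure ℚ)).Ψ₃.eval x₁ ∧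
      (x₂ - x₁) * (E⁄(AlgebraicClosure ℚ)).Ψ₂Sq.eval x₂ =
        (E⁄(AlgebraicClosure ℚ)).Ψ₃.eval x₂ := by
  have : Fact (Nat.Prime 5) := ⟨by norm_num⟩
  have hnt := nontrivial_five_torsion E hΔ
  -- a stable proper nonzero submodule
  have hex : ∃ N : Submodule (ZMod 5)
      (Submodule.torsionBy ℤ (E⁄(AlgebraicClosure ℚ)).Point ((5 : ℕ) : ℤ)),
      IsGaloisStable ℚ N ∧ N ≠ ⊥ ∧ N ≠ ⊤ := by
    by_contra hcon
    refine h ⟨hnt, fun N hN => ?_⟩
    by_contra h'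
    exact hcon ⟨N, hN, fun hb => h' (Or.inl hb), fun ht => h' (Or.inr ht)⟩
  obtain ⟨N, hNstable, hNbot, hNtop⟩ := hex
  have h5K : (5 : AlgebraicClosure ℚ) ≠ 0 := by norm_num
  have := finite_torsionBy_five (E⁄(AlgebraicClosure ℚ)) h5K
  have hcard : Nat.card (Submodule.torsionBy ℤ (E⁄(AlgebraicClosure ℚ)).Point ((5 : ℕ) : ℤ)) ≤
      5 ^ 2 := card_torsionBy_five_le (E⁄(AlgebraicClosure ℚ)) h5K
  obtain ⟨P, hPN, hP0, hall⟩ := stable_line_nat hcard N hNbot hNtop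
  have hP0' : (P : (E⁄(AlgebraicClosure ℚ)).Point) ≠ 0 := fun h => hP0 (Subtype.ext h)
  have h5P : 5 • (P : (E⁄(AlgebraicClosure ℚ)).Point) = 0 := by
    have := P.2
    rw [Submodule.mem_torsionBy_iff, natCast_zsmul] at this
    exact this
  obtain ⟨hne, hΦ1, hΦ2, hr1, hr2⟩ := five_torsion_relations (E⁄(AlgebraicClosure ℚ)) hP0' h5P
  obtain ⟨h2, h4, h4', -⟩ := five_torsion_aux (E⁄(AlgebraicClosure ℚ)) hP0' h5P
  obtain ⟨e3, e6, e4, e8⟩ := nsmul_facts h5P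
  refine ⟨xc _ (P : (E⁄(AlgebraicClosure ℚ)).Point),
    xc _ (2 • (P : (E⁄(AlgebraicClosure ℚ)).Point)), hne, ?_, hΦ1, hΦ2, hr1, hr2⟩
  intro σ
  obtain ⟨m, hm, hmP⟩ := hall (σ • P) (hNstable σ P hPN)
  have hk : σ • (P : (E⁄(AlgebraicClosure ℚ)).Point) =
      m • (P : (E⁄(AlgebraicClosure ℚ)).Point) := by
    have h1 : ((σ • P : Submodule.torsionBy ℤ (E⁄(AlgebraicClosure ℚ)).Point ((5 : ℕ) : ℤ)) :
        (E⁄(AlgebraicClosure ℚ)).Point) = σ • (P : (E⁄(AlgebraicClosure ℚ)).Point) := rfl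
    rw [← h1, hmP]
    simp
  have hσne := galois_smul_ne_zero E σ hP0'
  rw [← xc_galois_smul, ← xc_galois_smul, galois_smul_nsmul, hk]
  rw [hk] at hσne
  interval_cases m
  · exact absurd (zero_nsmul _) hσne
  · left
    rw [one_nsmul]
    exact ⟨rfl, rfl⟩
  · right
    exact ⟨rfl, by rw [h4', xc_neg]⟩
  · right
    rw [e6, e3, xc_neg]
    exact ⟨rfl, rfl⟩
  · left
    rw [e8, e4, xc_neg, xc_neg]
    exact ⟨rfl, rfl⟩

end Fermat.Agent.S51
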