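import Mathlib

/-!
# S51, part C2 (conditional form): rational points of `Y² = γ (γ - 4) (4 γ + 9)`

Assuming that `1` and `81` are not concordant (no rational `r` with `r² - 1` and `r² - 81`
both squares), the rational points of the curve are the obvious ones.  The reduction is a
`2`-descent written out by hand: with `x = 4γ`, `y = 4Y` one has `y² = x (x - 16) (x + 9)` and
the point is the double of a point giving `s² - 16 = u²`, `s² + 9 = v²`; then
`r = s v / u` has `r² - 1` and `r² - 81` squares.
-/

namespace Fermat.Agent.S51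

namespace RationalPoints

theorem rational_points_of
    (hC : ∀ r v w : ℚ, r ^ 2 - 1 = v ^ 2 → r ^ 2 - 81 = w ^ 2 → False)
    (γ Y : ℚ) (h : Y ^ 2 = γ * (γ - 4) * (4 * γ + 9)) :
    γ = 0 ∨ γ = 4 ∨ γ = -9 / 4 ∨ (γ = 9 ∧ (Y = 45 ∨ Y = -45)) ∨
      (γ = -1 ∧ (Y = 5 ∨ Y = -5)) := by
  by_cases hY : Y = 0
  · rw [hY] at h
    have h0 : γ * (γ - 4) * (4 * γ + 9) = 0 := by rw [← h]; ring
    rcases mul_eq_zero.1 h0 with h1 | h1
    · rcases mul_eq_zero.1 h1 with h2 | h2
      · exact Or.inl h2
      · exact Or.inr (Or.inl (by linarith))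
    · exact Or.inr (Or.inr (Or.inl (by linarith)))
  · by_cases hu : (γ - 9) * (γ + 1) = 0
    · rcases mul_eq_zero.1 hu with h1 | h1
      · have hγ : γ = 9 := by linarith
        subst hγ
        right; right; right; left
        refine ⟨rfl, ?_⟩
        have h2 : (Y - 45) * (Y + 45) = 0 := by linear_combination h
        rcases mul_eq_zero.1 h2 with h3 | h3
        · left; linarith
        · right; linarith
      · have hγ : γ = -1 := by linarith
        subst hγ
        right; right; right; right
        refine ⟨rfl, ?_⟩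
        have h2 : (Y - 5) * (Y + 5) = 0 := by linear_combination h
        rcases mul_eq_zero.1 h2 with h3 | h3
        · left; linarith
        · right; linarith
    · exfalso
      obtain ⟨s, hs⟩ : ∃ s : ℚ, s = (2 * γ ^ 2 + 18) / Y := ⟨_, rfl⟩
      obtain ⟨u, hu'⟩ : ∃ u : ℚ, u = 2 * ((γ - 9) * (γ + 1)) / Y := ⟨_, rfl⟩
      obtain ⟨v, hv⟩ : ∃ v : ℚ, v = (2 * γ ^ 2 + 9 * γ - 18) / Y := ⟨_, rfl⟩
      have hu0 : u ≠ 0 := by
        rw [hu']
        exact div_ne_zero (mul_ne_zero two_ne_zero hu) hY
      have h1 : s ^ 2 - 16 = u ^ 2 := by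
        rw [hs, hu']
        field_simp
        linear_combination (-16 : ℚ) * h
      have h2 : s ^ 2 + 9 = v ^ 2 := by
        rw [hs, hv]
        field_simp
        linear_combination (9 : ℚ) * h
      refine hC (s * v / u) ((s ^ 2 + 4) / u) ((s ^ 2 - 36) / u) ?_ ?_
      · field_simp
        linear_combination (-s ^ 2) * h2 + h1
      · field_simp
        linear_combination (-s ^ 2) * h2 + 81 * h1

end RationalPoints

end Fermat.Agent.S51
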