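import Mathlib
import Fermat.Prelude.Def_FLTPrelim_Modularity

/-!
# S51, part D: the four exceptional parameters contradict semistability

For `t ∈ {-10, -40, -25/2, -25/8}` the relation `c₄³ · t = Δ · (t² + 10 t + 5)³` forces
`5 ∣ c₄` and `5 ∣ Δ`, which is impossible for a semistable integral model.
-/

namespace Fermat.Agent.S51

namespace Semistable

/-- Core divisibility argument: an identity `A * c₄ ^ 3 = 5 ^ e * B * Δ` with `5 ∤ A`, `5 ∤ B`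
and `1 ≤ e ≤ 2` is impossible for a semistable model. -/
theorem core (W : WeierstrassCurve ℤ) (hss : W.IsSemistableModel) (A B : ℤ)
    (hA : ¬ (5 : ℤ) ∣ A) (hB : ¬ (5 : ℤ) ∣ B) (e : ℕ) (he : 1 ≤ e) (he3 : e ≤ 2)
    (h : A * W.c₄ ^ 3 = 5 ^ e * B * W.Δ) : False := by
  have hp : Prime (5 : ℤ) := by norm_num
  have h5c : (5 : ℤ) ∣ W.c₄ := by
    have h0 : (5 : ℤ) ∣ A * W.c₄ ^ 3 := by
      rw [h]
      exact Dvd.dvd.mul_right (Dvd.dvd.mul_right (dvd_pow_self 5 (by omega)) B) W.Δ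
    rcases hp.dvd_or_dvd h0 with h1 | h1
    · exact absurd h1 hA
    · exact hp.dvd_of_dvd_pow h1
  have h5Δ : (5 : ℤ) ∣ W.Δ := by
    obtain ⟨k, hk⟩ := h5c
    have h2 : (5 : ℤ) ^ e * (5 ^ (3 - e) * A * k ^ 3) = 5 ^ e * (B * W.Δ) := by
      rw [hk] at h
      have h53 : (5 : ℤ) ^ e * 5 ^ (3 - e) = 5 ^ 3 := by
        rw [← pow_add]
        congr 1
        omega
      calc (5 : ℤ) ^ e * (5 ^ (3 - e) * A * k ^ 3)
          = ((5 : ℤ) ^ e * 5 ^ (3 - e)) * A * k ^ 3 := by ring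
        _ = A * (5 * k) ^ 3 := by rw [h53]; ring
        _ = 5 ^ e * B * W.Δ := h
        _ = 5 ^ e * (B * W.Δ) := by ring
    have h3 : 5 ^ (3 - e) * A * k ^ 3 = B * W.Δ := mul_left_cancel₀ (by positivity) h2
    have h4 : (5 : ℤ) ∣ B * W.Δ := by
      rw [← h3]
      exact Dvd.dvd.mul_right (Dvd.dvd.mul_right (dvd_pow_self 5 (by omega)) A) _
    rcases hp.dvd_or_dvd h4 with h1 | h1
    · exact absurd h1 hB
    · exact h1
  exact hss 5 (by norm_num) (by exact_mod_cast h5Δ) (by exact_mod_cast h5c)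

end Semistable

/-- **Part D of S51.** For the four exceptional parameters `t`, the relation
`c₄³ · t = Δ · (t² + 10 t + 5)³` contradicts semistability (at the prime `5`). -/
theorem semistable_contra (W : WeierstrassCurve ℤ) (hss : W.IsSemistableModel) (t : ℚ)
    (ht : t = -10 ∨ t = -40 ∨ t = -25 / 2 ∨ t = -25 / 8) :
    (W.c₄ : ℚ) ^ 3 * t ≠ (W.Δ : ℚ) * (t ^ 2 + 10 * t + 5) ^ 3 := by
  intro heq
  rcases ht with rfl | rfl | rfl | rfl
  · have h' : ((-2 : ℚ) * (W.c₄ : ℚ) ^ 3) = 5 ^ 2 * 1 * (W.Δ : ℚ) := by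
      linear_combination (1 / 5 : ℚ) * heq
    have h : (-2 : ℤ) * W.c₄ ^ 3 = 5 ^ 2 * 1 * W.Δ := by exact_mod_cast h'
    exact Semistable.core W hss (-2) 1 (by norm_num) (by norm_num) 2 (by norm_num) (by norm_num) h
  · have h' : ((-8 : ℚ) * (W.c₄ : ℚ) ^ 3) = 5 ^ 2 * (241 ^ 3 : ℚ) * (W.Δ : ℚ) := by
      linear_combination (1 / 5 : ℚ) * heq
    have h : (-8 : ℤ) * W.c₄ ^ 3 = 5 ^ 2 * (241 ^ 3 : ℤ) * W.Δ := by exact_mod_cast h'
    exact Semistable.core W hss (-8) (241 ^ 3) (by norm_num) (by norm_num) 2 (by norm_num)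
      (by norm_num) h
  · have h' : ((-32 : ℚ) * (W.c₄ : ℚ) ^ 3) = 5 ^ 1 * (29 ^ 3 : ℚ) * (W.Δ : ℚ) := by
      linear_combination (64 / 25 : ℚ) * heq
    have h : (-32 : ℤ) * W.c₄ ^ 3 = 5 ^ 1 * (29 ^ 3 : ℤ) * W.Δ := by exact_mod_cast h'
    exact Semistable.core W hss (-32) (29 ^ 3) (by norm_num) (by norm_num) 1 (by norm_num)
      (by norm_num) h
  · have h' : ((32768 : ℚ) * (W.c₄ : ℚ) ^ 3) = 5 ^ 1 * (211 ^ 3 : ℚ) * (W.Δ : ℚ) := by
      linear_combination (-262144 / 25 : ℚ) * heq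
    have h : (32768 : ℤ) * W.c₄ ^ 3 = 5 ^ 1 * (211 ^ 3 : ℤ) * W.Δ := by exact_mod_cast h'
    exact Semistable.core W hss 32768 (211 ^ 3) (by norm_num) (by norm_num) 1 (by norm_num)
      (by norm_num) h

end Fermat.Agent.S51
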