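import Mathlib

/-!
# S51, part B (pure field algebra): Tate normal form parameters

Let `b₂ b₄ b₆ b₈` be the `b`-invariants of a Weierstrass curve (`4 b₈ = b₂ b₆ - b₄²`) and
`Φ(x) = 4x³+b₂x²+2b₄x+b₆`, `Ψ(x) = 3x⁴+b₂x³+3b₄x²+3b₆x+b₈` (`Ψ₂Sq`, `Ψ₃`).
For a point `P` of order `5` with `x₁ = x(P)`, `x₂ = x(2P)` one has
`(x₁-x₂) Φ(x₁) = Ψ(x₁)`, `(x₂-x₁) Φ(x₂) = Ψ(x₂)`, and for a point of order `3`, `Ψ(x₃) = 0`.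
In translated coordinates (`B₂ = 12x₁+b₂`, `B₄ = 6x₁²+b₂x₁+b₄`, `B₆ = Φ(x₁)`, `B₈ = Ψ(x₁)`,
`h = x₂-x₁`, `k = x₃-x₁`) everything is expressed through the Tate parameters
`b = h³/B₆`, `u = h²/B₆`, `ξ = k u`.
-/

set_option autoImplicit false

namespace Fermat.Agent.S51

namespace TateAlg

variable {F : Type*} [Field F]

/-- The `5`-torsion relation in translated coordinates. -/
theorem fiveT_of_doubling {B₂ B₄ B₆ B₈ h : F} (hh : h ≠ 0)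
    (h5a : h * B₆ = -B₈)
    (h5b : h * (B₆ + 2 * B₄ * h + B₂ * h ^ 2 + 4 * h ^ 3)
      = B₈ + 3 * B₆ * h + 3 * B₄ * h ^ 2 + B₂ * h ^ 3 + 3 * h ^ 4) :
    h ^ 3 = B₄ * h + B₆ := by
  have h0 : h * (h ^ 3 - B₄ * h - B₆) = 0 := by linear_combination h5b + h5a
  rcases mul_eq_zero.mp h0 with h1 | h1
  · exact absurd h1 hh
  · linear_combination h1

/-- Existence of Tate parameters `b, u`. -/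
theorem exists_tate_params {B₂ B₄ B₆ B₈ h : F} (hrel : 4 * B₈ = B₂ * B₆ - B₄ ^ 2)
    (hB₆ : B₆ ≠ 0) (hh : h ≠ 0) (h5a : h * B₆ = -B₈)
    (h5b : h * (B₆ + 2 * B₄ * h + B₂ * h ^ 2 + 4 * h ^ 3)
      = B₈ + 3 * B₆ * h + 3 * B₄ * h ^ 2 + B₂ * h ^ 3 + 3 * h ^ 4) :
    ∃ b u : F, b ≠ 0 ∧ u ≠ 0 ∧ h = b / u ∧ B₂ = (b ^ 2 - 6 * b + 1) / u ∧
      B₄ = (b ^ 2 - b) / u ^ 2 ∧ B₆ = b ^ 2 / u ^ 3 ∧ B₈ = -b ^ 3 / u ^ 4 := by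
  have hE1 := fiveT_of_doubling hh h5a h5b
  have hB₈ : B₈ = -(h * B₆) := by linear_combination h5a
  have hB₄ : B₄ = (h ^ 3 - B₆) / h := by
    rw [eq_div_iff hh]; linear_combination -hE1
  have hB₂ : B₂ = (B₄ ^ 2 + 4 * B₈) / B₆ := by
    rw [eq_div_iff hB₆]; linear_combination -hrel
  refine ⟨h ^ 3 / B₆, h ^ 2 / B₆, div_ne_zero (pow_ne_zero 3 hh) hB₆,
    div_ne_zero (pow_ne_zero 2 hh) hB₆, ?_, ?_, ?_, ?_, ?_⟩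
  · field_simp
  · rw [hB₂, hB₈, hB₄]; field_simp; ring
  · rw [hB₄]; field_simp
  · field_simp
  · rw [hB₈]; field_simp

/-- Core identities on the curve `R(ξ, η) = 0` (a model of `X₁(5) ×_{X(1)} X₀(3)`), `b = ξ + η`. -/
theorem core {ξ η : F} (hξ : ξ ≠ 0) (hη : η ≠ 0) (hb : ξ + η ≠ 0)
    (hR : (ξ + η) ^ 2 * ξ ^ 3 + 3 * ξ ^ 2 * η ^ 2 - η ^ 3 = 0) :
    ((ξ + η) * (2 * (ξ + η) ^ 2 * ξ + 3 * η ^ 2) * (η - ξ) / (ξ * η ^ 3)) ^ 2 =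
        (ξ + η) ^ 2 / (ξ * η) * ((ξ + η) ^ 2 / (ξ * η) - 4) * (4 * ((ξ + η) ^ 2 / (ξ * η)) + 9) ∧
      2 * ((ξ + η) - 1 / (ξ + η) - 11) * ((ξ + η) ^ 2 / (ξ * η)) =
        (ξ + η) * (2 * (ξ + η) ^ 2 * ξ + 3 * η ^ 2) * (η - ξ) / (ξ * η ^ 3) *
            ((ξ + η) ^ 2 / (ξ * η) - 1) -
          (3 * ((ξ + η) ^ 2 / (ξ * η)) + 13) * ((ξ + η) ^ 2 / (ξ * η)) ∧
      -(ξ + η) * (3 * ξ ^ 2 - 2 * η) * (η - ξ) / (η * ξ ^ 3) =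
        (ξ + η) * (2 * (ξ + η) ^ 2 * ξ + 3 * η ^ 2) * (η - ξ) / (ξ * η ^ 3) := by
  refine ⟨?_, ?_, ?_⟩
  · have key : ((ξ + η) * (2 * (ξ + η) ^ 2 * ξ + 3 * η ^ 2) * (η - ξ) / (ξ * η ^ 3)) ^ 2 -
        (ξ + η) ^ 2 / (ξ * η) * ((ξ + η) ^ 2 / (ξ * η) - 4) * (4 * ((ξ + η) ^ 2 / (ξ * η)) + 9) =
        4 * (ξ + η) ^ 4 * (η - ξ) ^ 2 *
          ((ξ + η) ^ 2 * ξ ^ 3 + 3 * ξ ^ 2 * η ^ 2 - η ^ 3) / (ξ ^ 3 * η ^ 6) := by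
      field_simp
      ring
    rw [hR, mul_zero, zero_div] at key
    exact sub_eq_zero.mp key
  · have key : (ξ + η) * (2 * (ξ + η) ^ 2 * ξ + 3 * η ^ 2) * (η - ξ) / (ξ * η ^ 3) *
            ((ξ + η) ^ 2 / (ξ * η) - 1) -
          (3 * ((ξ + η) ^ 2 / (ξ * η)) + 13) * ((ξ + η) ^ 2 / (ξ * η)) -
        2 * ((ξ + η) - 1 / (ξ + η) - 11) * ((ξ + η) ^ 2 / (ξ * η)) =
        -2 * (ξ + η) * ((ξ + η) ^ 2 * ξ ^ 3 + 3 * ξ ^ 2 * η ^ 2 - η ^ 3) / (ξ * η ^ 4) := by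
      field_simp
      ring
    rw [hR, mul_zero, zero_div] at key
    exact (sub_eq_zero.mp key).symm
  · have key : -(ξ + η) * (3 * ξ ^ 2 - 2 * η) * (η - ξ) / (η * ξ ^ 3) -
        (ξ + η) * (2 * (ξ + η) ^ 2 * ξ + 3 * η ^ 2) * (η - ξ) / (ξ * η ^ 3) =
        -2 * (ξ + η) * (η - ξ) * ((ξ + η) ^ 2 * ξ ^ 3 + 3 * ξ ^ 2 * η ^ 2 - η ^ 3) /
          (ξ ^ 3 * η ^ 3) := by
      field_simp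
      ring
    rw [hR, mul_zero, zero_div] at key
    exact sub_eq_zero.mp key

/-- `Φ(x) = 4x³+b₂x²+2b₄x+b₆` (`Ψ₂Sq`). -/
def phi (b₂ b₄ b₆ x : F) : F := 4 * x ^ 3 + b₂ * x ^ 2 + 2 * b₄ * x + b₆

/-- `Ψ(x) = 3x⁴+b₂x³+3b₄x²+3b₆x+b₈` (`Ψ₃`). -/
def psi (b₂ b₄ b₆ b₈ x : F) : F := 3 * x ^ 4 + b₂ * x ^ 3 + 3 * b₄ * x ^ 2 + 3 * b₆ * x + b₈

/-- The coordinate `γ` on `X₀(15)`. -/
def gam (x₁ x₂ x₃ : F) : F := (x₂ - x₁) ^ 2 / ((x₃ - x₁) * (x₂ - x₃))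

/-- The Hauptmodul `t` of `X₀(5)`. -/
def tt (b₂ b₄ b₆ x₁ x₂ : F) : F :=
  (x₂ - x₁) ^ 3 / phi b₂ b₄ b₆ x₁ + (x₁ - x₂) ^ 3 / phi b₂ b₄ b₆ x₂ - 11

/-- The coordinate `Y` on `X₀(15)`. -/
def yy (b₂ b₄ b₆ x₁ x₂ x₃ : F) : F :=
  (x₂ - x₁) * (2 * (x₂ - x₁) ^ 4 * (x₃ - x₁) / phi b₂ b₄ b₆ x₁ + 3 * (x₂ - x₃) ^ 2) *
    (x₁ + x₂ - 2 * x₃) / ((x₃ - x₁) * (x₂ - x₃) ^ 3)

theorem gam_symm (x₁ x₂ x₃ : F) : gam x₂ x₁ x₃ = gam x₁ x₂ x₃ := by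
  unfold gam
  congr 1 <;> ring

theorem tt_symm (b₂ b₄ b₆ x₁ x₂ : F) : tt b₂ b₄ b₆ x₂ x₁ = tt b₂ b₄ b₆ x₁ x₂ := by
  unfold tt
  ring

/-- The main algebraic statement. -/
theorem main {b₂ b₄ b₆ b₈ x₁ x₂ x₃ : F} (hrel : 4 * b₈ = b₂ * b₆ - b₄ ^ 2) (hne : x₁ ≠ x₂)
    (hΦ₁ : phi b₂ b₄ b₆ x₁ ≠ 0) (hΦ₂ : phi b₂ b₄ b₆ x₂ ≠ 0)
    (h12 : (x₁ - x₂) * phi b₂ b₄ b₆ x₁ = psi b₂ b₄ b₆ b₈ x₁)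
    (h21 : (x₂ - x₁) * phi b₂ b₄ b₆ x₂ = psi b₂ b₄ b₆ b₈ x₂)
    (h3 : psi b₂ b₄ b₆ b₈ x₃ = 0) :
    yy b₂ b₄ b₆ x₁ x₂ x₃ ^ 2 =
        gam x₁ x₂ x₃ * (gam x₁ x₂ x₃ - 4) * (4 * gam x₁ x₂ x₃ + 9) ∧
      gam x₁ x₂ x₃ ≠ 0 ∧
      2 * tt b₂ b₄ b₆ x₁ x₂ * gam x₁ x₂ x₃ =
        yy b₂ b₄ b₆ x₁ x₂ x₃ * (gam x₁ x₂ x₃ - 1) - (3 * gam x₁ x₂ x₃ + 13) * gam x₁ x₂ x₃ ∧
      (b₂ ^ 2 - 24 * b₄) ^ 3 * tt b₂ b₄ b₆ x₁ x₂ =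
        (-b₂ ^ 2 * b₈ - 8 * b₄ ^ 3 - 27 * b₆ ^ 2 + 9 * b₂ * b₄ * b₆) *
          (tt b₂ b₄ b₆ x₁ x₂ ^ 2 + 10 * tt b₂ b₄ b₆ x₁ x₂ + 5) ^ 3 ∧
      ((-b₂ ^ 2 * b₈ - 8 * b₄ ^ 3 - 27 * b₆ ^ 2 + 9 * b₂ * b₄ * b₆) ≠ 0 →
        tt b₂ b₄ b₆ x₁ x₂ ≠ 0) ∧
      yy b₂ b₄ b₆ x₂ x₁ x₃ = yy b₂ b₄ b₆ x₁ x₂ x₃ := by
  -- translated invariants
  have hh : x₂ - x₁ ≠ 0 := sub_ne_zero.mpr (Ne.symm hne)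
  have hrelB : 4 * psi b₂ b₄ b₆ b₈ x₁ =
      (12 * x₁ + b₂) * phi b₂ b₄ b₆ x₁ - (6 * x₁ ^ 2 + b₂ * x₁ + b₄) ^ 2 := by
    unfold phi psi; linear_combination hrel
  have hT2 : phi b₂ b₄ b₆ x₂ = phi b₂ b₄ b₆ x₁ + 2 * (6 * x₁ ^ 2 + b₂ * x₁ + b₄) * (x₂ - x₁) +
      (12 * x₁ + b₂) * (x₂ - x₁) ^ 2 + 4 * (x₂ - x₁) ^ 3 := by
    unfold phi; ring
  have hP2 : psi b₂ b₄ b₆ b₈ x₂ = psi b₂ b₄ b₆ b₈ x₁ + 3 * phi b₂ b₄ b₆ x₁ * (x₂ - x₁) +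
      3 * (6 * x₁ ^ 2 + b₂ * x₁ + b₄) * (x₂ - x₁) ^ 2 + (12 * x₁ + b₂) * (x₂ - x₁) ^ 3 +
      3 * (x₂ - x₁) ^ 4 := by
    unfold phi psi; ring
  have hP3 : psi b₂ b₄ b₆ b₈ x₃ = psi b₂ b₄ b₆ b₈ x₁ + 3 * phi b₂ b₄ b₆ x₁ * (x₃ - x₁) +
      3 * (6 * x₁ ^ 2 + b₂ * x₁ + b₄) * (x₃ - x₁) ^ 2 + (12 * x₁ + b₂) * (x₃ - x₁) ^ 3 +
      3 * (x₃ - x₁) ^ 4 := by
    unfold phi psi; ring
  have h5a : (x₂ - x₁) * phi b₂ b₄ b₆ x₁ = -psi b₂ b₄ b₆ b₈ x₁ := by linear_combination -h12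
  have h5b : (x₂ - x₁) * (phi b₂ b₄ b₆ x₁ + 2 * (6 * x₁ ^ 2 + b₂ * x₁ + b₄) * (x₂ - x₁) +
      (12 * x₁ + b₂) * (x₂ - x₁) ^ 2 + 4 * (x₂ - x₁) ^ 3) =
      psi b₂ b₄ b₆ b₈ x₁ + 3 * phi b₂ b₄ b₆ x₁ * (x₂ - x₁) +
      3 * (6 * x₁ ^ 2 + b₂ * x₁ + b₄) * (x₂ - x₁) ^ 2 + (12 * x₁ + b₂) * (x₂ - x₁) ^ 3 +
      3 * (x₂ - x₁) ^ 4 := by
    rw [← hT2, ← hP2]; exact h21
  obtain ⟨b, u, hb, hu, hhb, hB₂, hB₄, hB₆, hB₈⟩ := exists_tate_params hrelB hΦ₁ hh h5a h5b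
  -- the point of order 3
  have hΦ₂' : phi b₂ b₄ b₆ x₂ = b ^ 4 / u ^ 3 := by
    rw [hT2, hB₆, hB₄, hB₂, hhb]; field_simp; ring
  have hk : x₃ - x₁ ≠ 0 := by
    intro hk
    rw [hP3, hk] at h3
    have : psi b₂ b₄ b₆ b₈ x₁ = 0 := by linear_combination h3
    rw [hB₈] at this
    have hb3 : b ^ 3 = 0 := by
      field_simp at this
      linear_combination -this
    exact hb (pow_eq_zero_iff (by norm_num) |>.mp hb3)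
  have hhk : x₂ - x₃ ≠ 0 := by
    intro hhk
    have hx : x₃ = x₂ := by linear_combination -hhk
    rw [hx, ← h21] at h3
    rcases mul_eq_zero.mp h3 with h | h
    · exact hh h
    · exact hΦ₂ h
  -- the coordinates ξ, η
  obtain ⟨ξ, hξdef⟩ : ∃ ξ, ξ = (x₃ - x₁) * u := ⟨_, rfl⟩
  obtain ⟨η, hηdef⟩ : ∃ η, η = (x₂ - x₃) * u := ⟨_, rfl⟩
  have hξ : ξ ≠ 0 := by rw [hξdef]; exact mul_ne_zero hk hu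
  have hη : η ≠ 0 := by rw [hηdef]; exact mul_ne_zero hhk hu
  have hbξη : b = ξ + η := by
    rw [hξdef, hηdef]
    have : b = (x₂ - x₁) * u := by rw [hhb]; field_simp
    linear_combination this
  have hbξη' : ξ + η ≠ 0 := hbξη ▸ hb
  have e31 : x₃ - x₁ = ξ / u := by rw [hξdef]; field_simp
  have e23 : x₂ - x₃ = η / u := by rw [hηdef]; field_simp
  have e21 : x₂ - x₁ = (ξ + η) / u := by rw [← hbξη]; exact hhb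
  have e12 : x₁ - x₂ = -((ξ + η) / u) := by linear_combination -e21
  have e123 : x₁ + x₂ - 2 * x₃ = (η - ξ) / u := by
    have : x₁ + x₂ - 2 * x₃ = (x₂ - x₃) - (x₃ - x₁) := by ring
    rw [this, e31, e23]; ring
  have e213 : x₂ + x₁ - 2 * x₃ = (η - ξ) / u := by rw [← e123]; ring
  have e32 : x₃ - x₂ = -(η / u) := by linear_combination -e23
  have e13 : x₁ - x₃ = -(ξ / u) := by linear_combination -e31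
  have eΦ₁ : phi b₂ b₄ b₆ x₁ = (ξ + η) ^ 2 / u ^ 3 := by rw [hB₆, hbξη]
  have eΦ₂ : phi b₂ b₄ b₆ x₂ = (ξ + η) ^ 4 / u ^ 3 := by rw [hΦ₂', hbξη]
  have hR : (ξ + η) ^ 2 * ξ ^ 3 + 3 * ξ ^ 2 * η ^ 2 - η ^ 3 = 0 := by
    rw [hP3, hB₈, hB₆, hB₄, hB₂, e31, hbξη] at h3
    field_simp at h3
    linear_combination h3
  -- rewrite the coordinates
  have hg : gam x₁ x₂ x₃ = (ξ + η) ^ 2 / (ξ * η) := by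
    unfold gam; rw [e21, e31, e23]; field_simp
  have ht : tt b₂ b₄ b₆ x₁ x₂ = (ξ + η) - 1 / (ξ + η) - 11 := by
    unfold tt; rw [e21, e12, eΦ₁, eΦ₂]; field_simp; ring
  have hy : yy b₂ b₄ b₆ x₁ x₂ x₃ =
      (ξ + η) * (2 * (ξ + η) ^ 2 * ξ + 3 * η ^ 2) * (η - ξ) / (ξ * η ^ 3) := by
    unfold yy; rw [e21, e31, e23, e123, eΦ₁]; field_simp
  have hy' : yy b₂ b₄ b₆ x₂ x₁ x₃ =
      -(ξ + η) * (3 * ξ ^ 2 - 2 * η) * (η - ξ) / (η * ξ ^ 3) := by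
    unfold yy; rw [e12, e32, e13, e213, eΦ₂]; field_simp; ring
  obtain ⟨c1, c2, c3⟩ := core hξ hη hbξη' hR
  have hc₄ : b₂ ^ 2 - 24 * b₄ = (b ^ 4 - 12 * b ^ 3 + 14 * b ^ 2 + 12 * b + 1) / u ^ 2 := by
    have : b₂ ^ 2 - 24 * b₄ = (12 * x₁ + b₂) ^ 2 - 24 * (6 * x₁ ^ 2 + b₂ * x₁ + b₄) := by ring
    rw [this, hB₂, hB₄]; field_simp; ring
  have hΔ : -b₂ ^ 2 * b₈ - 8 * b₄ ^ 3 - 27 * b₆ ^ 2 + 9 * b₂ * b₄ * b₆ =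
      b ^ 5 * (b ^ 2 - 11 * b - 1) / u ^ 6 := by
    have : -b₂ ^ 2 * b₈ - 8 * b₄ ^ 3 - 27 * b₆ ^ 2 + 9 * b₂ * b₄ * b₆ =
        -(12 * x₁ + b₂) ^ 2 * psi b₂ b₄ b₆ b₈ x₁ - 8 * (6 * x₁ ^ 2 + b₂ * x₁ + b₄) ^ 3 -
          27 * phi b₂ b₄ b₆ x₁ ^ 2 +
          9 * (12 * x₁ + b₂) * (6 * x₁ ^ 2 + b₂ * x₁ + b₄) * phi b₂ b₄ b₆ x₁ := by
      unfold phi psi; linear_combination (6 * b₂ * x₁ + 36 * x₁ ^ 2) * hrel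
    rw [this, hB₂, hB₄, hB₆, hB₈]; field_simp; ring
  have ht' : tt b₂ b₄ b₆ x₁ x₂ = (b ^ 2 - 11 * b - 1) / b := by
    rw [ht, ← hbξη]; field_simp; ring
  refine ⟨?_, ?_, ?_, ?_, ?_, ?_⟩
  · rw [hy, hg]; exact c1
  · rw [hg]; exact div_ne_zero (pow_ne_zero 2 hbξη') (mul_ne_zero hξ hη)
  · rw [hy, hg, ht]; exact c2
  · rw [hc₄, hΔ, ht']; field_simp; ring
  · intro hΔ0 h0
    rw [hΔ] at hΔ0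
    rw [ht'] at h0
    have : b ^ 2 - 11 * b - 1 = 0 := by
      rcases div_eq_zero_iff.mp h0 with h | h
      · exact h
      · exact absurd h hb
    exact hΔ0 (by rw [this]; simp)
  · rw [hy, hy']; exact c3

/-- A common root of `Φ` and `Ψ` forces `Δ = 0`. -/
theorem delta_eq_zero_of_phi_psi {b₂ b₄ b₆ b₈ x : F} (hrel : 4 * b₈ = b₂ * b₆ - b₄ ^ 2)
    (hΦ : phi b₂ b₄ b₆ x = 0) (hΨ : psi b₂ b₄ b₆ b₈ x = 0) :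
    -b₂ ^ 2 * b₈ - 8 * b₄ ^ 3 - 27 * b₆ ^ 2 + 9 * b₂ * b₄ * b₆ = 0 := by
  have hrelB : 4 * psi b₂ b₄ b₆ b₈ x =
      (12 * x + b₂) * phi b₂ b₄ b₆ x - (6 * x ^ 2 + b₂ * x + b₄) ^ 2 := by
    unfold phi psi; linear_combination hrel
  rw [hΦ, hΨ] at hrelB
  have hB₄ : 6 * x ^ 2 + b₂ * x + b₄ = 0 := by
    have : (6 * x ^ 2 + b₂ * x + b₄) ^ 2 = 0 := by linear_combination hrelB
    exact pow_eq_zero_iff (two_ne_zero) |>.mp this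
  have : -b₂ ^ 2 * b₈ - 8 * b₄ ^ 3 - 27 * b₆ ^ 2 + 9 * b₂ * b₄ * b₆ =
      -(12 * x + b₂) ^ 2 * psi b₂ b₄ b₆ b₈ x - 8 * (6 * x ^ 2 + b₂ * x + b₄) ^ 3 -
        27 * phi b₂ b₄ b₆ x ^ 2 +
        9 * (12 * x + b₂) * (6 * x ^ 2 + b₂ * x + b₄) * phi b₂ b₄ b₆ x := by
    unfold phi psi; linear_combination (6 * b₂ * x + 36 * x ^ 2) * hrel
  rw [this, hΦ, hΨ, hB₄]; ring

/-- Converse direction (used for the nontriviality of the `5`-torsion): if `x₁` is a root of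
`Q₅ = M Φ² Ψ - Ψ³ - Φ⁴` (`M = 6x²+b₂x+b₄`) with `Φ(x₁) ≠ 0` and `x₂ = x₁ - Ψ(x₁)/Φ(x₁)`,
then `Φ(x₁) Φ(x₂) = (x₂-x₁)⁶` and `(x₂-x₁) Φ(x₂) = Ψ(x₂)`. -/
theorem doubling_back {b₂ b₄ b₆ b₈ x₁ x₂ : F} (hrel : 4 * b₈ = b₂ * b₆ - b₄ ^ 2)
    (hΦ₁ : phi b₂ b₄ b₆ x₁ ≠ 0)
    (h12 : (x₁ - x₂) * phi b₂ b₄ b₆ x₁ = psi b₂ b₄ b₆ b₈ x₁)
    (h5 : (6 * x₁ ^ 2 + b₂ * x₁ + b₄) * phi b₂ b₄ b₆ x₁ ^ 2 * psi b₂ b₄ b₆ b₈ x₁ =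
      psi b₂ b₄ b₆ b₈ x₁ ^ 3 + phi b₂ b₄ b₆ x₁ ^ 4) :
    phi b₂ b₄ b₆ x₁ * phi b₂ b₄ b₆ x₂ = (x₂ - x₁) ^ 6 ∧
      (x₂ - x₁) * phi b₂ b₄ b₆ x₂ = psi b₂ b₄ b₆ b₈ x₂ := by
  have hrelB : 4 * psi b₂ b₄ b₆ b₈ x₁ =
      (12 * x₁ + b₂) * phi b₂ b₄ b₆ x₁ - (6 * x₁ ^ 2 + b₂ * x₁ + b₄) ^ 2 := by
    unfold phi psi; linear_combination hrel
  have hT2 : phi b₂ b₄ b₆ x₂ = phi b₂ b₄ b₆ x₁ + 2 * (6 * x₁ ^ 2 + b₂ * x₁ + b₄) * (x₂ - x₁) +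
      (12 * x₁ + b₂) * (x₂ - x₁) ^ 2 + 4 * (x₂ - x₁) ^ 3 := by
    unfold phi; ring
  have hP2 : psi b₂ b₄ b₆ b₈ x₂ = psi b₂ b₄ b₆ b₈ x₁ + 3 * phi b₂ b₄ b₆ x₁ * (x₂ - x₁) +
      3 * (6 * x₁ ^ 2 + b₂ * x₁ + b₄) * (x₂ - x₁) ^ 2 + (12 * x₁ + b₂) * (x₂ - x₁) ^ 3 +
      3 * (x₂ - x₁) ^ 4 := by
    unfold phi psi; ring
  have hB₈ : psi b₂ b₄ b₆ b₈ x₁ = -((x₂ - x₁) * phi b₂ b₄ b₆ x₁) := by linear_combination -h12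
  -- (5T): h³ = B₄ h + B₆
  have hE1 : (x₂ - x₁) ^ 3 = (6 * x₁ ^ 2 + b₂ * x₁ + b₄) * (x₂ - x₁) + phi b₂ b₄ b₆ x₁ := by
    rw [hB₈] at h5
    have h0 : phi b₂ b₄ b₆ x₁ ^ 3 * ((x₂ - x₁) ^ 3 - (6 * x₁ ^ 2 + b₂ * x₁ + b₄) * (x₂ - x₁) -
        phi b₂ b₄ b₆ x₁) = 0 := by linear_combination h5
    rcases mul_eq_zero.mp h0 with h | h
    · exact absurd (pow_eq_zero_iff (by norm_num) |>.mp h) hΦ₁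
    · linear_combination h
  rw [hB₈] at hrelB
  constructor
  · rw [hT2]
    linear_combination (-(x₂ - x₁) ^ 2) * hrelB +
      ((x₂ - x₁) ^ 3 + (6 * x₁ ^ 2 + b₂ * x₁ + b₄) * (x₂ - x₁) + phi b₂ b₄ b₆ x₁) * (-1) * hE1 +
      0 * hE1
  · rw [hT2, hP2, hB₈]
    linear_combination (x₂ - x₁) * hE1

section Map

variable {F' : Type*} [Field F'] (f : F →+* F')

theorem map_phi (b₂ b₄ b₆ x : F) : f (phi b₂ b₄ b₆ x) = phi (f b₂) (f b₄) (f b₆) (f x) := by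
  simp [phi, map_ofNat]

theorem map_psi (b₂ b₄ b₆ b₈ x : F) :
    f (psi b₂ b₄ b₆ b₈ x) = psi (f b₂) (f b₄) (f b₆) (f b₈) (f x) := by
  simp [psi, map_ofNat]

theorem map_gam (x₁ x₂ x₃ : F) : f (gam x₁ x₂ x₃) = gam (f x₁) (f x₂) (f x₃) := by
  simp [gam]

theorem map_tt (b₂ b₄ b₆ x₁ x₂ : F) :
    f (tt b₂ b₄ b₆ x₁ x₂) = tt (f b₂) (f b₄) (f b₆) (f x₁) (f x₂) := by
  simp [tt, map_phi, map_ofNat]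

theorem map_yy (b₂ b₄ b₆ x₁ x₂ x₃ : F) :
    f (yy b₂ b₄ b₆ x₁ x₂ x₃) = yy (f b₂) (f b₄) (f b₆) (f x₁) (f x₂) (f x₃) := by
  simp [yy, map_phi, map_ofNat]

end Map

end TateAlg

end Fermat.Agent.S51
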