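import Mathlib
import Fermat.Prelude.Def_FLTPrelim_GaloisRep
import Fermat.Agent.Lib.GalQbar
import Fermat.Agent.S51.TateAlg

/-!
# S51, part B: from the torsion data to a rational point of `Y² = γ (γ - 4) (4 γ + 9)`

Given a rational root `x₃` of `Ψ₃` and the `x`-coordinates `x₁ = x(P)`, `x₂ = x(2P)` of a
Galois-stable subgroup of order `5`, the quantities `γ`, `Y`, `t` of `TateAlg` are fixed by
`Gal(ℚ̄/ℚ)`, hence rational, and satisfy the relations of `TateAlg.main`.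
-/

set_option autoImplicit false

open WeierstrassCurve WeierstrassCurve.Affine

namespace Fermat.Agent.S51

open TateAlg in
theorem tate_param (E : WeierstrassCurve ℚ) (hΔ : E.Δ ≠ 0) (x₃ : ℚ) (hx₃ : E.Ψ₃.eval x₃ = 0)
    (x₁ x₂ : AlgebraicClosure ℚ) (hne : x₁ ≠ x₂)
    (hσ : ∀ σ : AlgebraicClosure ℚ ≃ₐ[ℚ] AlgebraicClosure ℚ,
        (σ x₁ = x₁ ∧ σ x₂ = x₂) ∨ (σ x₁ = x₂ ∧ σ x₂ = x₁))
    (hΦ₁ : (E⁄(AlgebraicClosure ℚ)).Ψ₂Sq.eval x₁ ≠ 0)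
    (hΦ₂ : (E⁄(AlgebraicClosure ℚ)).Ψ₂Sq.eval x₂ ≠ 0)
    (h12 : (x₁ - x₂) * (E⁄(AlgebraicClosure ℚ)).Ψ₂Sq.eval x₁ =
      (E⁄(AlgebraicClosure ℚ)).Ψ₃.eval x₁)
    (h21 : (x₂ - x₁) * (E⁄(AlgebraicClosure ℚ)).Ψ₂Sq.eval x₂ =
      (E⁄(AlgebraicClosure ℚ)).Ψ₃.eval x₂) :
    ∃ γ Y t : ℚ, Y ^ 2 = γ * (γ - 4) * (4 * γ + 9) ∧ γ ≠ 0 ∧ t ≠ 0 ∧
      2 * t * γ = Y * (γ - 1) - (3 * γ + 13) * γ ∧
      E.c₄ ^ 3 * t = E.Δ * (t ^ 2 + 10 * t + 5) ^ 3 := by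
  -- notation
  set c : ℚ →+* AlgebraicClosure ℚ := algebraMap ℚ (AlgebraicClosure ℚ) with hc
  have hcinj : Function.Injective c := c.injective
  have eΦ : ∀ x : AlgebraicClosure ℚ, (E⁄(AlgebraicClosure ℚ)).Ψ₂Sq.eval x =
      phi (c E.b₂) (c E.b₄) (c E.b₆) x := by
    intro x
    simp [WeierstrassCurve.Ψ₂Sq, phi, Affine.baseChange, WeierstrassCurve.baseChange, hc]
  have eΨ : ∀ x : AlgebraicClosure ℚ, (E⁄(AlgebraicClosure ℚ)).Ψ₃.eval x =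
      psi (c E.b₂) (c E.b₄) (c E.b₆) (c E.b₈) x := by
    intro x
    simp [WeierstrassCurve.Ψ₃, psi, Affine.baseChange, WeierstrassCurve.baseChange, hc]
  rw [eΦ] at hΦ₁ hΦ₂
  rw [eΦ, eΨ] at h12 h21
  have hrel : 4 * c E.b₈ = c E.b₂ * c E.b₆ - c E.b₄ ^ 2 := by
    have := congrArg c E.b_relation
    simpa using this
  have h3 : psi (c E.b₂) (c E.b₄) (c E.b₆) (c E.b₈) (c x₃) = 0 := by
    have h0 : psi E.b₂ E.b₄ E.b₆ E.b₈ x₃ = 0 := by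
      simpa [WeierstrassCurve.Ψ₃, psi] using hx₃
    rw [← map_psi, h0, map_zero]
  obtain ⟨m1, m2, m3, m4, m5, m6⟩ := main hrel hne hΦ₁ hΦ₂ h12 h21 h3
  -- Galois invariance
  have hcσ : ∀ (σ : AlgebraicClosure ℚ ≃ₐ[ℚ] AlgebraicClosure ℚ) (q : ℚ), σ (c q) = c q :=
    fun σ q => σ.commutes q
  have fixγ : ∀ σ : AlgebraicClosure ℚ ≃ₐ[ℚ] AlgebraicClosure ℚ,
      σ (gam x₁ x₂ (c x₃)) = gam x₁ x₂ (c x₃) := by
    intro σ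
    have := map_gam (σ : AlgebraicClosure ℚ →+* AlgebraicClosure ℚ) x₁ x₂ (c x₃)
    simp only [RingHom.coe_coe, hcσ] at this
    rw [this]
    rcases hσ σ with ⟨h1, h2⟩ | ⟨h1, h2⟩
    · rw [h1, h2]
    · rw [h1, h2, gam_symm]
  have fixt : ∀ σ : AlgebraicClosure ℚ ≃ₐ[ℚ] AlgebraicClosure ℚ,
      σ (tt (c E.b₂) (c E.b₄) (c E.b₆) x₁ x₂) = tt (c E.b₂) (c E.b₄) (c E.b₆) x₁ x₂ := by
    intro σ
    have := map_tt (σ : AlgebraicClosure ℚ →+* AlgebraicClosure ℚ) (c E.b₂) (c E.b₄) (c E.b₆)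
      x₁ x₂
    simp only [RingHom.coe_coe, hcσ] at this
    rw [this]
    rcases hσ σ with ⟨h1, h2⟩ | ⟨h1, h2⟩
    · rw [h1, h2]
    · rw [h1, h2, tt_symm]
  have fixy : ∀ σ : AlgebraicClosure ℚ ≃ₐ[ℚ] AlgebraicClosure ℚ,
      σ (yy (c E.b₂) (c E.b₄) (c E.b₆) x₁ x₂ (c x₃)) =
        yy (c E.b₂) (c E.b₄) (c E.b₆) x₁ x₂ (c x₃) := by
    intro σ
    have := map_yy (σ : AlgebraicClosure ℚ →+* AlgebraicClosure ℚ) (c E.b₂) (c E.b₄) (c E.b₆)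
      x₁ x₂ (c x₃)
    simp only [RingHom.coe_coe, hcσ] at this
    rw [this]
    rcases hσ σ with ⟨h1, h2⟩ | ⟨h1, h2⟩
    · rw [h1, h2]
    · rw [h1, h2, m6]
  obtain ⟨γ, hγ⟩ := Lib.GalQbar.exists_rat_of_fixed _ fixγ
  obtain ⟨Y, hY⟩ := Lib.GalQbar.exists_rat_of_fixed _ fixy
  obtain ⟨t, ht⟩ := Lib.GalQbar.exists_rat_of_fixed _ fixt
  change c γ = _ at hγ
  change c Y = _ at hY
  change c t = _ at ht
  rw [← hγ, ← hY] at m1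
  rw [← hγ] at m2
  rw [← hγ, ← hY, ← ht] at m3
  rw [← ht] at m4 m5
  have hc₄ : c E.c₄ = c E.b₂ ^ 2 - 24 * c E.b₄ := by
    simp [WeierstrassCurve.c₄]
  have hΔc : c E.Δ = -c E.b₂ ^ 2 * c E.b₈ - 8 * c E.b₄ ^ 3 - 27 * c E.b₆ ^ 2 +
      9 * c E.b₂ * c E.b₄ * c E.b₆ := by
    simp [WeierstrassCurve.Δ]
  rw [← hc₄, ← hΔc] at m4
  rw [← hΔc] at m5
  refine ⟨γ, Y, t, ?_, ?_, ?_, ?_, ?_⟩
  · apply hcinj
    simpa using m1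
  · intro h
    apply m2
    rw [h, map_zero]
  · intro h
    apply m5
    · intro h0
      exact hΔ (hcinj (by rw [h0, map_zero]))
    · rw [h, map_zero]
  · apply hcinj
    simpa using m3
  · apply hcinj
    simpa using m4

end Fermat.Agent.S51
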