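import Mathlib
import Fermat.Agent.S51.Concordant
import Fermat.Agent.S51.RationalPointsAux

/-!
# S51, part C2: rational points of `Y² = γ (γ - 4) (4 γ + 9)`

The only rational points are `γ ∈ {0, 4, -9/4}` (with `Y = 0`), `(9, ±45)` and `(-1, ±5)`.
This combines the `2`-descent of `RationalPointsAux` with the non-concordance of `1` and `81`
(`no_concordant`).
-/

namespace Fermat.Agent.S51

/-- **Part C2 of S51.** The rational points of `Y² = γ (γ - 4) (4 γ + 9)`. -/
theorem rational_points (γ Y : ℚ) (h : Y ^ 2 = γ * (γ - 4) * (4 * γ + 9)) :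
    γ = 0 ∨ γ = 4 ∨ γ = -9 / 4 ∨ (γ = 9 ∧ (Y = 45 ∨ Y = -45)) ∨
      (γ = -1 ∧ (Y = 5 ∨ Y = -5)) :=
  RationalPoints.rational_points_of no_concordant γ Y h

end Fermat.Agent.S51
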