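import Mathlib
import Fermat.Prelude.Def_FLTPrelim_GaloisRep
import Fermat.Agent.Lib.GalQbar

/-!
# S51, part B: the Tate-normal-form algebra (`tate_param`)

Given a point of order `5` (through the `x`-coordinates `x₁ = x(P)`, `x₂ = x(2P)` and the two
doubling relations) and a root `x₃` of `Ψ₃`, we produce a point `(γ, Y)` of
`Y² = γ(γ-4)(4γ+9)` and the parameter `t` with `c₄³ t = Δ (t² + 10t + 5)³`.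

Method: the two doubling relations and the relation `4b₈ = b₂b₆ - b₄²` give an explicit
parametrisation (`exists_param`) of `b₂, b₄, b₆, b₈, x₂` by `x₁` and two parameters `v, b`
(the Tate normal form `y² + (1-b)xy - by = x³ - bx²`, scaled by `v` and translated by `x₁`);
after substituting, every claim is an identity of rational functions in free variables.
-/

set_option autoImplicit false
open WeierstrassCurve WeierstrassCurve.Affine WeierstrassCurve.Affine.Point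

namespace Fermat.Agent.S51.TateParamAlt

section core

variable {F : Type*} [Field F]

/-- `Ψ₂Sq` as a function of the `b`-invariants. -/
def phi (b₂ b₄ b₆ x : F) : F := 4 * x ^ 3 + b₂ * x ^ 2 + 2 * b₄ * x + b₆

/-- `Ψ₃` as a function of the `b`-invariants. -/
def psi (b₂ b₄ b₆ b₈ x : F) : F := 3 * x ^ 4 + b₂ * x ^ 3 + 3 * b₄ * x ^ 2 + 3 * b₆ * x + b₈

theorem exists_param (b₂ b₄ b₆ b₈ x₁ x₂ : F) (hb : 4 * b₈ = b₂ * b₆ - b₄ ^ 2) (h12 : x₁ ≠ x₂)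
    (hΦ₁ : phi b₂ b₄ b₆ x₁ ≠ 0)
    (h1 : (x₁ - x₂) * phi b₂ b₄ b₆ x₁ = psi b₂ b₄ b₆ b₈ x₁)
    (h2 : (x₂ - x₁) * phi b₂ b₄ b₆ x₂ = psi b₂ b₄ b₆ b₈ x₂) :
    ∃ v b : F, v ≠ 0 ∧ b ≠ 0 ∧ x₂ = x₁ + v * b ∧ b₂ = v * (b ^ 2 - 6 * b + 1) - 12 * x₁ ∧
      b₄ = v ^ 2 * b * (b - 1) - b₂ * x₁ - 6 * x₁ ^ 2 ∧
      b₆ = v ^ 3 * b ^ 2 - (4 * x₁ ^ 3 + b₂ * x₁ ^ 2 + 2 * b₄ * x₁) ∧
      b₈ = -(v ^ 4 * b ^ 3) - (3 * x₁ ^ 4 + b₂ * x₁ ^ 3 + 3 * b₄ * x₁ ^ 2 + 3 * b₆ * x₁) := by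
  obtain ⟨h, rfl⟩ : ∃ h, x₂ = x₁ + h := ⟨x₂ - x₁, by ring⟩
  have hh0 : h ≠ 0 := fun h0 => h12 (by rw [h0, add_zero])
  obtain ⟨Φ₁, hΦ⟩ : ∃ Φ₁, Φ₁ = phi b₂ b₄ b₆ x₁ := ⟨_, rfl⟩
  rw [← hΦ] at hΦ₁ h1
  simp only [phi, psi] at *
  have E1 : 3 * x₁ ^ 4 + b₂ * x₁ ^ 3 + 3 * b₄ * x₁ ^ 2 + 3 * b₆ * x₁ + b₈ = -(h * Φ₁) := by
    linear_combination -h1
  have E2 : h ^ 3 = (6 * x₁ ^ 2 + b₂ * x₁ + b₄) * h + Φ₁ := by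
    have : h * (h ^ 3 - (6 * x₁ ^ 2 + b₂ * x₁ + b₄) * h - Φ₁) = 0 := by
      linear_combination h2 + E1 - 2 * h * hΦ
    rcases mul_eq_zero.mp this with h0 | h0
    · exact absurd h0 hh0
    · linear_combination h0
  have E3 : 4 * (3 * x₁ ^ 4 + b₂ * x₁ ^ 3 + 3 * b₄ * x₁ ^ 2 + 3 * b₆ * x₁ + b₈) =
      (12 * x₁ + b₂) * Φ₁ - (6 * x₁ ^ 2 + b₂ * x₁ + b₄) ^ 2 := by
    linear_combination hb - (12 * x₁ + b₂) * hΦ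
  refine ⟨Φ₁ / h ^ 2, h ^ 3 / Φ₁, div_ne_zero hΦ₁ (pow_ne_zero 2 hh0),
    div_ne_zero (pow_ne_zero 3 hh0) hΦ₁, ?_, ?_, ?_, ?_, ?_⟩
  · field_simp
  · field_simp
    linear_combination h ^ 2 * (-E3 + 4 * E1) - ((6 * x₁ ^ 2 + b₂ * x₁ + b₄) * h + h ^ 3 - Φ₁) * E2
  · field_simp
    linear_combination -E2
  · field_simp
    linear_combination -hΦ
  · field_simp
    linear_combination E1


/-- The Tate parameter `b` of the pair `(x₁, x₂)`. -/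
def tb (b₂ b₄ b₆ x₁ x₂ : F) : F := (x₂ - x₁) ^ 3 / phi b₂ b₄ b₆ x₁

/-- The cross-ratio-like parameter `β`. -/
def tβ (x₁ x₂ x₃ : F) : F := (x₂ - x₁) / (x₃ - x₁)

/-- The parameter `t` on `X₀(5)`. -/
def tt (b : F) : F := b - 1 / b - 11

/-- The coordinate `γ` on `X₀(15)`. -/
def tγ (β : F) : F := β ^ 2 / (β - 1)

/-- The coordinate `Y` on `X₀(15)`. -/
def tY (β b : F) : F := β * (β - 2) * (2 * β * b + 3 * (β - 1) ^ 2) / (β - 1) ^ 3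

theorem core_a (β b : F) (hβ1 : β ≠ 1)
    (hC : β * b ^ 2 + 3 * (β - 1) ^ 2 * b - β * (β - 1) ^ 3 = 0) :
    tY β b ^ 2 = tγ β * (tγ β - 4) * (4 * tγ β + 9) := by
  have h1 : β - 1 ≠ 0 := sub_ne_zero.mpr hβ1
  unfold tY tγ
  field_simp
  grind

theorem core_d (β b : F) (hβ0 : β ≠ 0) (hβ1 : β ≠ 1) (hb0 : b ≠ 0)
    (hC : β * b ^ 2 + 3 * (β - 1) ^ 2 * b - β * (β - 1) ^ 3 = 0) :
    2 * tt b * tγ β = tY β b * (tγ β - 1) - (3 * tγ β + 13) * tγ β := by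
  have h1 : β - 1 ≠ 0 := sub_ne_zero.mpr hβ1
  unfold tY tγ tt
  field_simp
  grind

theorem core_fY (β b : F) (hβ0 : β ≠ 0) (hβ1 : β ≠ 1) (hb0 : b ≠ 0)
    (hC : β * b ^ 2 + 3 * (β - 1) ^ 2 * b - β * (β - 1) ^ 3 = 0) :
    tY (β / (β - 1)) (-1 / b) = tY β b := by
  have h1 : β - 1 ≠ 0 := sub_ne_zero.mpr hβ1
  unfold tY
  have e1 : β / (β - 1) - 1 = 1 / (β - 1) := by field_simp; ring
  rw [e1]
  field_simp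
  grind

theorem core_fγ (β : F) (hβ1 : β ≠ 1) : tγ (β / (β - 1)) = tγ β := by
  have h1 : β - 1 ≠ 0 := sub_ne_zero.mpr hβ1
  unfold tγ
  have e1 : β / (β - 1) - 1 = 1 / (β - 1) := by field_simp; ring
  rw [e1]
  field_simp

theorem core_ft (b : F) (hb0 : b ≠ 0) : tt (-1 / b) = tt b := by
  unfold tt
  field_simp
  ring

/-- The algebraic core of part B: from the two doubling relations (a point of order `5` with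
`x(P) = x₁`, `x(2P) = x₂`) and a root `x₃` of `Ψ₃`, one gets a point `(γ, Y)` on
`Y² = γ(γ-4)(4γ+9)` and the parameter `t` with `c₄³ t = Δ (t² + 10 t + 5)³`; all three are
invariant under swapping `x₁` and `x₂`. -/
theorem tate_core (b₂ b₄ b₆ b₈ x₁ x₂ x₃ : F) (hb : 4 * b₈ = b₂ * b₆ - b₄ ^ 2) (h12 : x₁ ≠ x₂)
    (hΦ₁ : phi b₂ b₄ b₆ x₁ ≠ 0)
    (h1 : (x₁ - x₂) * phi b₂ b₄ b₆ x₁ = psi b₂ b₄ b₆ b₈ x₁)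
    (h2 : (x₂ - x₁) * phi b₂ b₄ b₆ x₂ = psi b₂ b₄ b₆ b₈ x₂)
    (h3 : psi b₂ b₄ b₆ b₈ x₃ = 0)
    (hΔ : -b₂ ^ 2 * b₈ - 8 * b₄ ^ 3 - 27 * b₆ ^ 2 + 9 * b₂ * b₄ * b₆ ≠ 0) :
    tY (tβ x₁ x₂ x₃) (tb b₂ b₄ b₆ x₁ x₂) ^ 2 =
      tγ (tβ x₁ x₂ x₃) * (tγ (tβ x₁ x₂ x₃) - 4) * (4 * tγ (tβ x₁ x₂ x₃) + 9) ∧
    tγ (tβ x₁ x₂ x₃) ≠ 0 ∧ tt (tb b₂ b₄ b₆ x₁ x₂) ≠ 0 ∧
    2 * tt (tb b₂ b₄ b₆ x₁ x₂) * tγ (tβ x₁ x₂ x₃) =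
      tY (tβ x₁ x₂ x₃) (tb b₂ b₄ b₆ x₁ x₂) * (tγ (tβ x₁ x₂ x₃) - 1) -
        (3 * tγ (tβ x₁ x₂ x₃) + 13) * tγ (tβ x₁ x₂ x₃) ∧
    (b₂ ^ 2 - 24 * b₄) ^ 3 * tt (tb b₂ b₄ b₆ x₁ x₂) =
      (-b₂ ^ 2 * b₈ - 8 * b₄ ^ 3 - 27 * b₆ ^ 2 + 9 * b₂ * b₄ * b₆) *
        (tt (tb b₂ b₄ b₆ x₁ x₂) ^ 2 + 10 * tt (tb b₂ b₄ b₆ x₁ x₂) + 5) ^ 3 ∧
    tt (tb b₂ b₄ b₆ x₂ x₁) = tt (tb b₂ b₄ b₆ x₁ x₂) ∧
    tγ (tβ x₂ x₁ x₃) = tγ (tβ x₁ x₂ x₃) ∧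
    tY (tβ x₂ x₁ x₃) (tb b₂ b₄ b₆ x₂ x₁) = tY (tβ x₁ x₂ x₃) (tb b₂ b₄ b₆ x₁ x₂) := by
  obtain ⟨v, b, hv, hb0, rfl, rfl, rfl, rfl, rfl⟩ := exists_param b₂ b₄ b₆ b₈ x₁ x₂ hb h12 hΦ₁ h1 h2
  obtain ⟨s, rfl⟩ : ∃ s, x₃ = x₁ + s := ⟨x₃ - x₁, by ring⟩
  -- the cubic relation for `s`
  have H3 : -(v ^ 4 * b ^ 3) + 3 * v ^ 3 * b ^ 2 * s + 3 * v ^ 2 * b * (b - 1) * s ^ 2 +
      v * (b ^ 2 - 6 * b + 1) * s ^ 3 + 3 * s ^ 4 = 0 := by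
    unfold psi at h3
    linear_combination h3
  have hs0 : s ≠ 0 := by
    rintro rfl
    have : v ^ 4 * b ^ 3 = 0 := by linear_combination -H3
    exact pow_ne_zero 4 hv (by simpa [hb0] using this)
  have hs1 : s ≠ v * b := by
    rintro rfl
    have : v ^ 4 * b ^ 5 = 0 := by linear_combination H3
    exact pow_ne_zero 4 hv (by simpa [hb0] using this)
  have hs1' : v * b - s ≠ 0 := sub_ne_zero.mpr (Ne.symm hs1)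
  -- the values of the parameters
  have hphi1 : ∀ c₂ c₄ c₆ : F, c₂ = v * (b ^ 2 - 6 * b + 1) - 12 * x₁ →
      c₄ = v ^ 2 * b * (b - 1) - c₂ * x₁ - 6 * x₁ ^ 2 →
      c₆ = v ^ 3 * b ^ 2 - (4 * x₁ ^ 3 + c₂ * x₁ ^ 2 + 2 * c₄ * x₁) →
      phi c₂ c₄ c₆ x₁ = v ^ 3 * b ^ 2 ∧ phi c₂ c₄ c₆ (x₁ + v * b) = v ^ 3 * b ^ 4 := by
    rintro c₂ c₄ c₆ rfl rfl rfl
    constructor <;> · unfold phi; ring
  obtain ⟨hp1, hp2⟩ := hphi1 _ _ _ rfl rfl rfl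
  have hb1 : tb (v * (b ^ 2 - 6 * b + 1) - 12 * x₁)
      (v ^ 2 * b * (b - 1) - (v * (b ^ 2 - 6 * b + 1) - 12 * x₁) * x₁ - 6 * x₁ ^ 2)
      (v ^ 3 * b ^ 2 - (4 * x₁ ^ 3 + (v * (b ^ 2 - 6 * b + 1) - 12 * x₁) * x₁ ^ 2 +
        2 * (v ^ 2 * b * (b - 1) - (v * (b ^ 2 - 6 * b + 1) - 12 * x₁) * x₁ - 6 * x₁ ^ 2) * x₁))
      x₁ (x₁ + v * b) = b := by
    rw [tb, hp1]
    field_simp
    ring
  have hb2 : tb (v * (b ^ 2 - 6 * b + 1) - 12 * x₁)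
      (v ^ 2 * b * (b - 1) - (v * (b ^ 2 - 6 * b + 1) - 12 * x₁) * x₁ - 6 * x₁ ^ 2)
      (v ^ 3 * b ^ 2 - (4 * x₁ ^ 3 + (v * (b ^ 2 - 6 * b + 1) - 12 * x₁) * x₁ ^ 2 +
        2 * (v ^ 2 * b * (b - 1) - (v * (b ^ 2 - 6 * b + 1) - 12 * x₁) * x₁ - 6 * x₁ ^ 2) * x₁))
      (x₁ + v * b) x₁ = -1 / b := by
    rw [tb, hp2]
    field_simp
    ring
  have hβ : tβ x₁ (x₁ + v * b) (x₁ + s) = v * b / s := by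
    unfold tβ
    congr 1 <;> ring
  have hβ0 : v * b / s ≠ 0 := div_ne_zero (mul_ne_zero hv hb0) hs0
  have hβ1 : v * b / s ≠ 1 := by
    intro h
    rw [div_eq_one_iff_eq hs0] at h
    exact hs1 h.symm
  have hβ' : tβ (x₁ + v * b) x₁ (x₁ + s) = (v * b / s) / (v * b / s - 1) := by
    unfold tβ
    have e1 : x₁ + s - (x₁ + v * b) = -(v * b - s) := by ring
    have e2 : x₁ - (x₁ + v * b) = -(v * b) := by ring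
    rw [e1, e2]
    field_simp
  have hC : (v * b / s) * b ^ 2 + 3 * ((v * b / s) - 1) ^ 2 * b - (v * b / s) * ((v * b / s) - 1) ^ 3
      = 0 := by
    field_simp
    linear_combination b * H3
  have hc4 : ((v * (b ^ 2 - 6 * b + 1) - 12 * x₁) ^ 2 - 24 *
      (v ^ 2 * b * (b - 1) - (v * (b ^ 2 - 6 * b + 1) - 12 * x₁) * x₁ - 6 * x₁ ^ 2)) =
      v ^ 2 * (b ^ 4 - 12 * b ^ 3 + 14 * b ^ 2 + 12 * b + 1) := by ring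
  have hdisc : ∀ c₂ c₄ c₆ c₈ : F, c₂ = v * (b ^ 2 - 6 * b + 1) - 12 * x₁ →
      c₄ = v ^ 2 * b * (b - 1) - c₂ * x₁ - 6 * x₁ ^ 2 →
      c₆ = v ^ 3 * b ^ 2 - (4 * x₁ ^ 3 + c₂ * x₁ ^ 2 + 2 * c₄ * x₁) →
      c₈ = -(v ^ 4 * b ^ 3) - (3 * x₁ ^ 4 + c₂ * x₁ ^ 3 + 3 * c₄ * x₁ ^ 2 + 3 * c₆ * x₁) →
      -c₂ ^ 2 * c₈ - 8 * c₄ ^ 3 - 27 * c₆ ^ 2 + 9 * c₂ * c₄ * c₆ =
        v ^ 6 * b ^ 5 * (b ^ 2 - 11 * b - 1) := by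
    rintro c₂ c₄ c₆ c₈ rfl rfl rfl rfl
    ring
  have hΔ' := hdisc _ _ _ _ rfl rfl rfl rfl
  rw [hΔ'] at hΔ ⊢
  rw [hc4, hb1, hb2, hβ, hβ']
  have hq : b ^ 2 - 11 * b - 1 ≠ 0 := by
    intro h
    apply hΔ
    rw [h, mul_zero]
  refine ⟨core_a _ _ hβ1 hC, ?_, ?_, core_d _ _ hβ0 hβ1 hb0 hC, ?_, core_ft b hb0,
    core_fγ _ hβ1, core_fY _ _ hβ0 hβ1 hb0 hC⟩
  · unfold tγ
    exact div_ne_zero (pow_ne_zero 2 hβ0) (sub_ne_zero.mpr hβ1)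
  · unfold tt
    intro h
    apply hq
    field_simp at h
    linear_combination h
  · unfold tt
    field_simp
    ring


/-! ### Compatibility with field homomorphisms -/

variable {L : Type*} [Field L]

theorem map_tb (f : F →+* L) (b₂ b₄ b₆ x₁ x₂ : F) :
    f (tb b₂ b₄ b₆ x₁ x₂) = tb (f b₂) (f b₄) (f b₆) (f x₁) (f x₂) := by
  simp [tb, phi, map_ofNat]

theorem map_tβ (f : F →+* L) (x₁ x₂ x₃ : F) : f (tβ x₁ x₂ x₃) = tβ (f x₁) (f x₂) (f x₃) := by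
  simp [tβ]

theorem map_tt (f : F →+* L) (b : F) : f (tt b) = tt (f b) := by
  simp [tt, map_ofNat]

theorem map_tγ (f : F →+* L) (β : F) : f (tγ β) = tγ (f β) := by
  simp [tγ]

theorem map_tY (f : F →+* L) (β b : F) : f (tY β b) = tY (f β) (f b) := by
  simp [tY, map_ofNat]

end core

section descent

open Fermat.Agent.Lib.GalQbar Polynomial

/-- **Part B** (shadow of `tate_param`): from a rational root of `Ψ₃` and the `5`-torsion data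
`x₁, x₂` one gets a rational point on `Y² = γ(γ-4)(4γ+9)` with `γ ≠ 0` and the parameter `t`. -/
theorem tate_param (E : WeierstrassCurve ℚ) (hΔ : E.Δ ≠ 0) (x₃ : ℚ) (hx₃ : E.Ψ₃.eval x₃ = 0)
    (x₁ x₂ : AlgebraicClosure ℚ) (h12 : x₁ ≠ x₂)
    (hσ : ∀ σ : AlgebraicClosure ℚ ≃ₐ[ℚ] AlgebraicClosure ℚ,
      (σ x₁ = x₁ ∧ σ x₂ = x₂) ∨ (σ x₁ = x₂ ∧ σ x₂ = x₁))
    (hΦ₁ : (E⁄(AlgebraicClosure ℚ)).Ψ₂Sq.eval x₁ ≠ 0)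
    (_hΦ₂ : (E⁄(AlgebraicClosure ℚ)).Ψ₂Sq.eval x₂ ≠ 0)
    (h1 : (x₁ - x₂) * (E⁄(AlgebraicClosure ℚ)).Ψ₂Sq.eval x₁ = (E⁄(AlgebraicClosure ℚ)).Ψ₃.eval x₁)
    (h2 : (x₂ - x₁) * (E⁄(AlgebraicClosure ℚ)).Ψ₂Sq.eval x₂ =
      (E⁄(AlgebraicClosure ℚ)).Ψ₃.eval x₂) :
    ∃ γ Y t : ℚ, Y ^ 2 = γ * (γ - 4) * (4 * γ + 9) ∧ γ ≠ 0 ∧ t ≠ 0 ∧
      2 * t * γ = Y * (γ - 1) - (3 * γ + 13) * γ ∧
      E.c₄ ^ 3 * t = E.Δ * (t ^ 2 + 10 * t + 5) ^ 3 := by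
  set ι := algebraMap ℚ (AlgebraicClosure ℚ) with hι
  have hinj : Function.Injective ι := ι.injective
  have hPhi : ∀ x : AlgebraicClosure ℚ, (E⁄(AlgebraicClosure ℚ)).Ψ₂Sq.eval x =
      phi (ι E.b₂) (ι E.b₄) (ι E.b₆) x := by
    intro x
    simp [Ψ₂Sq, phi, Affine.baseChange, WeierstrassCurve.baseChange, hι]
  have hPsi : ∀ x : AlgebraicClosure ℚ, (E⁄(AlgebraicClosure ℚ)).Ψ₃.eval x =
      psi (ι E.b₂) (ι E.b₄) (ι E.b₆) (ι E.b₈) x := by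
    intro x
    simp [Ψ₃, psi, Affine.baseChange, WeierstrassCurve.baseChange, hι]
  rw [hPhi] at hΦ₁ h1 h2
  rw [hPsi] at h1 h2
  have hb : 4 * ι E.b₈ = ι E.b₂ * ι E.b₆ - ι E.b₄ ^ 2 := by
    have := congrArg ι E.b_relation
    simpa [map_ofNat] using this
  have h3 : psi (ι E.b₂) (ι E.b₄) (ι E.b₆) (ι E.b₈) (ι x₃) = 0 := by
    have h3' : psi E.b₂ E.b₄ E.b₆ E.b₈ x₃ = 0 := by
      simpa [Ψ₃, psi] using hx₃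
    have := congrArg ι h3'
    simpa [psi, map_ofNat] using this
  have hΔ' : -ι E.b₂ ^ 2 * ι E.b₈ - 8 * ι E.b₄ ^ 3 - 27 * ι E.b₆ ^ 2 +
      9 * ι E.b₂ * ι E.b₄ * ι E.b₆ ≠ 0 := by
    have : -ι E.b₂ ^ 2 * ι E.b₈ - 8 * ι E.b₄ ^ 3 - 27 * ι E.b₆ ^ 2 +
        9 * ι E.b₂ * ι E.b₄ * ι E.b₆ = ι E.Δ := by
      simp [Δ]
    rw [this]
    exact fun h => hΔ (hinj (by rw [h, _root_.map_zero]))
  obtain ⟨ha, hγ0, ht0, hd, he, hft, hfγ, hfY⟩ :=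
    tate_core (ι E.b₂) (ι E.b₄) (ι E.b₆) (ι E.b₈) x₁ x₂ (ι x₃) hb h12 hΦ₁ h1 h2 h3 hΔ'
  -- Galois invariance
  have hfixι : ∀ (σ : AlgebraicClosure ℚ ≃ₐ[ℚ] AlgebraicClosure ℚ) (q : ℚ), σ (ι q) = ι q :=
    fun σ q => σ.commutes q
  have hT : ∀ σ : AlgebraicClosure ℚ ≃ₐ[ℚ] AlgebraicClosure ℚ,
      σ (tt (tb (ι E.b₂) (ι E.b₄) (ι E.b₆) x₁ x₂)) = tt (tb (ι E.b₂) (ι E.b₄) (ι E.b₆) x₁ x₂) := by
    intro σ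
    have := map_tt (σ : AlgebraicClosure ℚ →+* AlgebraicClosure ℚ)
      (tb (ι E.b₂) (ι E.b₄) (ι E.b₆) x₁ x₂)
    rw [map_tb] at this
    simp only [RingHom.coe_coe, hfixι] at this
    rw [this]
    rcases hσ σ with ⟨e1, e2⟩ | ⟨e1, e2⟩
    · rw [e1, e2]
    · rw [e1, e2, hft]
  have hG : ∀ σ : AlgebraicClosure ℚ ≃ₐ[ℚ] AlgebraicClosure ℚ,
      σ (tγ (tβ x₁ x₂ (ι x₃))) = tγ (tβ x₁ x₂ (ι x₃)) := by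
    intro σ
    have := map_tγ (σ : AlgebraicClosure ℚ →+* AlgebraicClosure ℚ) (tβ x₁ x₂ (ι x₃))
    rw [map_tβ] at this
    simp only [RingHom.coe_coe, hfixι] at this
    rw [this]
    rcases hσ σ with ⟨e1, e2⟩ | ⟨e1, e2⟩
    · rw [e1, e2]
    · rw [e1, e2, hfγ]
  have hY : ∀ σ : AlgebraicClosure ℚ ≃ₐ[ℚ] AlgebraicClosure ℚ,
      σ (tY (tβ x₁ x₂ (ι x₃)) (tb (ι E.b₂) (ι E.b₄) (ι E.b₆) x₁ x₂)) =
        tY (tβ x₁ x₂ (ι x₃)) (tb (ι E.b₂) (ι E.b₄) (ι E.b₆) x₁ x₂) := by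
    intro σ
    have := map_tY (σ : AlgebraicClosure ℚ →+* AlgebraicClosure ℚ) (tβ x₁ x₂ (ι x₃))
      (tb (ι E.b₂) (ι E.b₄) (ι E.b₆) x₁ x₂)
    rw [map_tβ, map_tb] at this
    simp only [RingHom.coe_coe, hfixι] at this
    rw [this]
    rcases hσ σ with ⟨e1, e2⟩ | ⟨e1, e2⟩
    · rw [e1, e2]
    · rw [e1, e2, hfY]
  obtain ⟨t, ht⟩ := exists_rat_of_fixed _ hT
  obtain ⟨γ, hγ⟩ := exists_rat_of_fixed _ hG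
  obtain ⟨Y, hY'⟩ := exists_rat_of_fixed _ hY
  rw [← hγ, ← hY'] at ha
  rw [← ht, ← hγ, ← hY'] at hd
  rw [← hγ] at hγ0
  rw [← ht] at ht0 he
  refine ⟨γ, Y, t, ?_, ?_, ?_, ?_, ?_⟩
  · apply hinj
    simpa [hι, map_ofNat] using ha
  · rintro rfl
    exact hγ0 (_root_.map_zero _)
  · rintro rfl
    exact ht0 (_root_.map_zero _)
  · apply hinj
    simpa [hι, map_ofNat] using hd
  · apply hinj
    have hc4 : ι E.c₄ = ι E.b₂ ^ 2 - 24 * ι E.b₄ := by simp [c₄]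
    have hdisc : ι E.Δ = -ι E.b₂ ^ 2 * ι E.b₈ - 8 * ι E.b₄ ^ 3 - 27 * ι E.b₆ ^ 2 +
        9 * ι E.b₂ * ι E.b₄ * ι E.b₆ := by simp [Δ]
    rw [map_mul, map_pow, map_mul, map_pow, map_add, map_add, map_pow, map_mul, hc4, hdisc]
    simpa [hι, map_ofNat] using he

end descent

end Fermat.Agent.S51.TateParamAlt
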